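import Fermat.Agent.PackingLP.Poisson
import Mathlib.Analysis.Complex.Basic

/-!
# The bound of Cohn and Elkies

For a periodic packing `t_j + B ℤⁿ`, Poisson summation of `f (t_j - t_k + B v)` over all `j, k, v`
gives `#t · f̂(0) ≤ |det B| f(0)`; a finite packing in a cube is one period of a periodic packing.
-/

set_option autoImplicit false

noncomputable section

open MeasureTheory Complex Matrix UnitAddTorus
open scoped Real

namespace FA.PackingLP

open FA.HeckeFE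

variable {n : ℕ}

/-- The Fourier transform. -/
def fourierT (f : (Fin n → ℝ) → ℝ) (ξ : Fin n → ℝ) : ℂ :=
  ∫ x : Fin n → ℝ, cexp (-(2 * π * I * ∑ i, (ξ i : ℂ) * (x i : ℂ))) * (f x : ℂ)

/-- A test function: `f` and its transform `F ≥ 0` decay, `f ≤ 0` off the unit ball. -/
structure IsTestFunction (f F : (Fin n → ℝ) → ℝ) : Prop where
  continuous : Continuous f
  decay : HasDecay f
  fourier : ∀ ξ, fourierT f ξ = (F ξ : ℂ)
  decay_fourier : HasDecay F
  nonneg : ∀ ξ, 0 ≤ F ξ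
  nonpos : ∀ x, 1 ≤ ∑ i, x i ^ 2 → f x ≤ 0

theorem exists_comp_bound {B : Matrix (Fin n) (Fin n) ℝ} (hB : B.det ≠ 0) {f : (Fin n → ℝ) → ℝ}
    (hf : HasDecay f) : HasDecay fun x => f (B *ᵥ x) := by
  obtain ⟨C, hC⟩ := hf
  have hu : IsUnit B.det := isUnit_iff_ne_zero.2 hB
  obtain ⟨δ, hδ, hlow⟩ := exists_lower_bound (L := B) (N := (B⁻¹)ᵀ) (by
    rw [Matrix.transpose_transpose, Matrix.nonsing_inv_mul _ hu])
  refine ⟨|C| * ((min 1 δ) ^ n)⁻¹, fun x => (hC _).trans ?_⟩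
  have hm : 0 < min 1 δ := lt_min one_pos hδ
  have hs : 0 ≤ ∑ i, x i ^ 2 := Finset.sum_nonneg fun i _ => sq_nonneg _
  rw [mul_assoc]
  refine mul_le_mul (le_abs_self C) ?_ (radialWeight_pos _).le (abs_nonneg C)
  rw [radialWeight, radialWeight, ← mul_inv, ← mul_pow]
  refine inv_anti₀ (by positivity) (pow_le_pow_left₀ (by positivity) ?_ n)
  calc min 1 δ * (1 + ∑ i, x i ^ 2) = min 1 δ + min 1 δ * ∑ i, x i ^ 2 := by ring
    _ ≤ 1 + δ * ∑ i, x i ^ 2 :=
        add_le_add (min_le_left _ _) (mul_le_mul_of_nonneg_right (min_le_right _ _) hs)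
    _ ≤ _ := by linarith [hlow x]

theorem coeff_comp {B : Matrix (Fin n) (Fin n) ℝ} (hB : B.det ≠ 0) {f : (Fin n → ℝ) → ℝ}
    (hf : Continuous f) (m : Fin n → ℤ) :
    ∫ x : Fin n → ℝ, mFourier (-m) (toTorus x) * (f (B *ᵥ x) : ℂ) =
      ((|B.det|⁻¹ : ℝ) : ℂ) * fourierT f ((B⁻¹)ᵀ *ᵥ ofInt m) := by
  have hu : IsUnit B.det := isUnit_iff_ne_zero.2 hB
  set g : (Fin n → ℝ) → ℂ := fun y =>
    cexp (-(2 * π * I * ∑ i, (((B⁻¹)ᵀ *ᵥ ofInt m) i : ℂ) * (y i : ℂ))) * (f y : ℂ)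
  have hg : ∀ x, mFourier (-m) (toTorus x) * (f (B *ᵥ x) : ℂ) = g (B *ᵥ x) := fun x => by
    have hlin : ∑ i, ((B⁻¹)ᵀ *ᵥ ofInt m) i * (B *ᵥ x) i = ∑ i, (m i : ℝ) * x i := by
      show ((B⁻¹)ᵀ *ᵥ ofInt m) ⬝ᵥ (B *ᵥ x) = ofInt m ⬝ᵥ x
      rw [Matrix.mulVec_transpose, ← Matrix.dotProduct_mulVec, Matrix.mulVec_mulVec,
        Matrix.nonsing_inv_mul _ hu, Matrix.one_mulVec]
    simp only [g, mFourier_toTorus]
    congr 2
    have hlin' := congrArg (fun r : ℝ => (r : ℂ)) hlin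
    push_cast at hlin' ⊢
    rw [hlin']
    simp [Finset.mul_sum, Finset.sum_neg_distrib]
  simp only [hg]
  have hmeas : Measurable fun x : Fin n → ℝ => B *ᵥ x := by
    unfold Matrix.mulVec dotProduct; fun_prop
  have hcont : Continuous g := by fun_prop
  rw [← integral_map hmeas.aemeasurable hcont.aestronglyMeasurable,
    show (fun x => B *ᵥ x) = ⇑(Matrix.toLin' B) from rfl,
    Real.map_matrix_volume_pi_eq_smul_volume_pi hB, integral_smul_measure,
    ENNReal.toReal_ofReal (abs_nonneg _), abs_inv, Complex.real_smul, fourierT]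

theorem poisson_lattice {B : Matrix (Fin n) (Fin n) ℝ} (hB : B.det ≠ 0)
    {f F : (Fin n → ℝ) → ℝ} (h : IsTestFunction f F) (Δ : Fin n → ℝ) :
    ((∑' v : Fin n → ℤ, f (Δ + B *ᵥ ofInt v) : ℝ) : ℂ) = ((|B.det|⁻¹ : ℝ) : ℂ) *
      ∑' m : Fin n → ℤ, (F ((B⁻¹)ᵀ *ᵥ ofInt m) : ℂ) *
        cexp (2 * π * I * ∑ i, (m i : ℂ) * ((B⁻¹ *ᵥ Δ) i : ℂ)) := by
  have hu : IsUnit B.det := isUnit_iff_ne_zero.2 hB
  have hN : ((B⁻¹)ᵀ).det ≠ 0 := by
    rw [Matrix.det_transpose, Matrix.det_nonsing_inv, Ring.inverse_eq_inv']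
    exact inv_ne_zero hB
  obtain ⟨C', hC'⟩ := exists_comp_bound hB h.decay
  obtain ⟨K, -, hK⟩ := (exists_comp_bound hN h.decay_fourier).bound
  have hsum : Summable fun m : Fin n → ℤ =>
      ((|B.det|⁻¹ : ℝ) : ℂ) * (F ((B⁻¹)ᵀ *ᵥ ofInt m) : ℂ) := by
    refine Summable.mul_left _
      (Summable.of_norm_bounded (summable_prodWeight.mul_left K) fun m => ?_)
    rw [Complex.norm_real]
    exact hK (ofInt m)
  have hP := poisson_decay (H := fun x => (f (B *ᵥ x) : ℂ))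
    (continuous_ofReal.comp (h.continuous.comp (continuous_const.matrix_mulVec continuous_id)))
    ⟨C', fun x => by simpa using hC' x⟩ (fun m => by rw [coeff_comp hB h.continuous, h.fourier])
    hsum (B⁻¹ *ᵥ Δ)
  rw [← tsum_mul_left, Complex.ofReal_tsum]
  refine Eq.trans ?_ (hP.trans (tsum_congr fun m => ?_))
  · refine tsum_congr fun v => ?_
    rw [Matrix.mulVec_add, Matrix.mulVec_mulVec, Matrix.mul_nonsing_inv _ hu, Matrix.one_mulVec]
  · rw [mFourier_toTorus, mul_assoc]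

theorem zero_mulVec_ofInt (B : Matrix (Fin n) (Fin n) ℝ) :
    B *ᵥ ofInt (0 : Fin n → ℤ) = 0 := by
  rw [show ofInt (0 : Fin n → ℤ) = 0 from funext fun i => by simp [ofInt], Matrix.mulVec_zero]

theorem summable_translates {B : Matrix (Fin n) (Fin n) ℝ} (hB : B.det ≠ 0)
    {f : (Fin n → ℝ) → ℝ} (hf : HasDecay f) (Δ : Fin n → ℝ) :
    Summable fun v : Fin n → ℤ => f (Δ + B *ᵥ ofInt v) := by
  obtain ⟨C, hC0, hC⟩ := (exists_comp_bound hB hf).bound
  refine Summable.of_norm_bounded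
    (summable_prodWeight.mul_left (C * (2 * (1 + ‖B⁻¹ *ᵥ Δ‖ ^ 2)) ^ n)) fun v => ?_
  have h := hC (B⁻¹ *ᵥ Δ + ofInt v)
  rw [Matrix.mulVec_add, Matrix.mulVec_mulVec, Matrix.mul_nonsing_inv _ (isUnit_iff_ne_zero.2 hB),
    Matrix.one_mulVec] at h
  refine h.trans ?_
  rw [mul_assoc]
  exact mul_le_mul_of_nonneg_left
    (prodWeight_shift (fun i => (Real.norm_eq_abs _).symm.trans_le (norm_le_pi_norm _ i)) v) hC0

/-- Poisson summation over all the pairs. -/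
theorem lp_double_sum {B : Matrix (Fin n) (Fin n) ℝ} (hB : B.det ≠ 0)
    {f F : (Fin n → ℝ) → ℝ} (h : IsTestFunction f F) (t : Finset (Fin n → ℝ)) :
    (t.card : ℝ) ^ 2 * F 0 ≤
      |B.det| * ∑ p ∈ t, ∑ q ∈ t, ∑' v : Fin n → ℤ, f (p - q + B *ᵥ ofInt v) := by
  have hu : IsUnit B.det := isUnit_iff_ne_zero.2 hB
  set N := (B⁻¹)ᵀ with hNdef
  set e : (Fin n → ℤ) → (Fin n → ℝ) → ℂ := fun m p =>
    cexp (2 * π * I * ∑ i, (m i : ℂ) * ((B⁻¹ *ᵥ p) i : ℂ))
  set S : (Fin n → ℤ) → ℂ := fun m => ∑ p ∈ t, e m p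
  have hN : N.det ≠ 0 := by
    rw [Matrix.det_transpose, Matrix.det_nonsing_inv, Ring.inverse_eq_inv']
    exact inv_ne_zero hB
  obtain ⟨K, hK0, hK⟩ := (exists_comp_bound hN h.decay_fourier).bound
  have hFs : Summable fun m : Fin n → ℤ => F (N *ᵥ ofInt m) :=
    Summable.of_norm_bounded (summable_prodWeight.mul_left K) fun m => hK (ofInt m)
  have hterm : ∀ p q m, (F (N *ᵥ ofInt m) : ℂ) *
      cexp (2 * π * I * ∑ i, (m i : ℂ) * ((B⁻¹ *ᵥ (p - q)) i : ℂ)) =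
      (F (N *ᵥ ofInt m) : ℂ) * (e m p * (starRingEnd ℂ) (e m q)) := fun p q m => by
    simp only [e, ← Complex.exp_conj, ← Complex.exp_add, map_mul, map_sum, Complex.conj_I,
      Complex.conj_ofReal, map_intCast, map_ofNat, Matrix.mulVec_sub, Pi.sub_apply,
      Complex.ofReal_sub, mul_sub, Finset.sum_sub_distrib]
    congr 2
    ring
  have hnorm : ∀ p q m, ‖(F (N *ᵥ ofInt m) : ℂ) * (e m p * (starRingEnd ℂ) (e m q))‖ =
      |F (N *ᵥ ofInt m)| := fun p q m => by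
    rw [norm_mul, norm_mul, Complex.norm_conj, Complex.norm_real, Real.norm_eq_abs]
    simp [e, Complex.norm_exp]
  have hs : ∀ p q, Summable fun m : Fin n → ℤ =>
      (F (N *ᵥ ofInt m) : ℂ) * (e m p * (starRingEnd ℂ) (e m q)) := fun p q =>
    Summable.of_norm ((hFs.abs).congr fun m => (hnorm p q m).symm)
  -- both sides of Poisson summation, summed over the pairs
  have hsum : ((∑ p ∈ t, ∑ q ∈ t, ∑' v : Fin n → ℤ, f (p - q + B *ᵥ ofInt v) : ℝ) : ℂ) =
      ((|B.det|⁻¹ * ∑' m : Fin n → ℤ, F (N *ᵥ ofInt m) * ‖S m‖ ^ 2 : ℝ) : ℂ) := by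
    rw [Complex.ofReal_mul, Complex.ofReal_tsum, Complex.ofReal_sum]
    simp only [Complex.ofReal_sum, poisson_lattice hB h, ← Finset.mul_sum]
    simp only [← hNdef, hterm]
    congr 1
    rw [Finset.sum_congr rfl fun p _ => (Summable.tsum_finsetSum fun q _ => hs p q).symm,
      ← Summable.tsum_finsetSum fun p _ => summable_sum fun q _ => hs p q]
    refine tsum_congr fun m => ?_
    rw [Complex.ofReal_mul, Complex.ofReal_pow, ← Complex.mul_conj', map_sum, Finset.sum_mul_sum,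
      Finset.mul_sum]
    exact Finset.sum_congr rfl fun p _ => by rw [Finset.mul_sum]
  have hsum' := Complex.ofReal_inj.1 hsum
  have hlow : F 0 * (t.card : ℝ) ^ 2 ≤ ∑' m : Fin n → ℤ, F (N *ᵥ ofInt m) * ‖S m‖ ^ 2 := by
    have hnn : ∀ m, 0 ≤ F (N *ᵥ ofInt m) * ‖S m‖ ^ 2 := fun m =>
      mul_nonneg (h.nonneg _) (sq_nonneg _)
    have hS : ∀ m, ‖S m‖ ≤ t.card := fun m =>
      (norm_sum_le_of_le t fun p _ => (by simp [e, Complex.norm_exp] : ‖e m p‖ ≤ 1)).trans_eq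
        (by simp)
    have hss : Summable fun m : Fin n → ℤ => F (N *ᵥ ofInt m) * ‖S m‖ ^ 2 :=
      Summable.of_nonneg_of_le hnn (fun m => mul_le_mul_of_nonneg_left
        (pow_le_pow_left₀ (norm_nonneg _) (hS m) 2) (h.nonneg _)) (hFs.mul_right _)
    have h0 : ofInt (0 : Fin n → ℤ) = 0 := funext fun i => by simp [ofInt]
    refine le_of_eq_of_le ?_ (hss.le_tsum 0 fun m _ => hnn m)
    simp [S, e, h0]
  rw [hsum', ← mul_assoc, mul_inv_cancel₀ (abs_ne_zero.2 hB), one_mul]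
  linarith

/-- A pair contributes `f 0` at most, and less unless all the other terms vanish. -/
theorem periodic_pair {B : Matrix (Fin n) (Fin n) ℝ} (hB : B.det ≠ 0)
    {f F : (Fin n → ℝ) → ℝ} (h : IsTestFunction f F) {p q : Fin n → ℝ}
    (hpack : ∀ v : Fin n → ℤ, (p = q ∧ v = 0) ∨ 1 ≤ ∑ i, (p - q + B *ᵥ ofInt v) i ^ 2) :
    ∑' v : Fin n → ℤ, f (p - q + B *ᵥ ofInt v) ≤ (if p = q then f 0 else 0) ∧
      ∀ v, (p = q → v ≠ 0) → f (p - q + B *ᵥ ofInt v) ≠ 0 →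
        ∑' v : Fin n → ℤ, f (p - q + B *ᵥ ofInt v) < if p = q then f 0 else 0 := by
  have hs := summable_translates hB h.decay (p - q)
  have he := hasSum_ite_eq (0 : Fin n → ℤ) (if p = q then f 0 else 0)
  have hle : ∀ v, f (p - q + B *ᵥ ofInt v) ≤
      if v = 0 then (if p = q then f 0 else 0) else 0 := fun v => by
    rcases hpack v with ⟨rfl, rfl⟩ | h1
    · simp [zero_mulVec_ofInt]
    · split_ifs with hv hpq
      · subst hv hpq
        norm_num [zero_mulVec_ofInt] at h1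
      all_goals exact h.nonpos _ h1
  refine ⟨(hs.tsum_le_tsum hle he.summable).trans_eq he.tsum_eq, fun v hv hne => ?_⟩
  refine (Summable.tsum_lt_tsum hle (i := v) ?_ hs he.summable).trans_eq he.tsum_eq
  have hlt : f (p - q + B *ᵥ ofInt v) < 0 := lt_of_le_of_ne
    (h.nonpos _ ((hpack v).resolve_left fun e => hv e.1 e.2)) hne
  split_ifs with hv0 hpq
  · exact absurd hv0 (hv hpq)
  all_goals exact hlt

theorem periodic_bound_nonempty {B : Matrix (Fin n) (Fin n) ℝ} (hB : B.det ≠ 0)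
    {f F : (Fin n → ℝ) → ℝ} (h : IsTestFunction f F) (t : Finset (Fin n → ℝ))
    (hpack : ∀ p ∈ t, ∀ q ∈ t, ∀ v : Fin n → ℤ,
      (p = q ∧ v = 0) ∨ 1 ≤ ∑ i, (p - q + B *ᵥ ofInt v) i ^ 2) :
    t.Nonempty → (t.card : ℝ) * F 0 ≤ |B.det| * f 0 := by
  intro ht
  have hsum := Finset.sum_le_sum fun p hp => Finset.sum_le_sum fun q hq =>
    (periodic_pair hB h (hpack p hp q hq)).1
  rw [Finset.sum_congr rfl fun p hp => show ∑ q ∈ t, (if p = q then f 0 else 0) = f 0 by simp [hp],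
    Finset.sum_const, nsmul_eq_mul] at hsum
  have hmul := (lp_double_sum hB h t).trans (mul_le_mul_of_nonneg_left hsum (abs_nonneg B.det))
  refine le_of_mul_le_mul_left ?_ (Nat.cast_pos.2 ht.card_pos : (0 : ℝ) < t.card)
  linarith

/-- **Equality in the bound**: `f` vanishes at all the differences. -/
theorem periodic_equality {B : Matrix (Fin n) (Fin n) ℝ} (hB : B.det ≠ 0)
    {f F : (Fin n → ℝ) → ℝ} (h : IsTestFunction f F) (t : Finset (Fin n → ℝ))
    (hpack : ∀ p ∈ t, ∀ q ∈ t, ∀ v : Fin n → ℤ,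
      (p = q ∧ v = 0) ∨ 1 ≤ ∑ i, (p - q + B *ᵥ ofInt v) i ^ 2)
    (heq : (t.card : ℝ) * F 0 = |B.det| * f 0) {p q : Fin n → ℝ} (hp : p ∈ t) (hq : q ∈ t)
    {v : Fin n → ℤ} (hv : p = q → v ≠ 0) : f (p - q + B *ᵥ ofInt v) = 0 := by
  by_contra hne
  have hsum := Finset.sum_lt_sum
    (fun a ha => Finset.sum_le_sum fun b hb => (periodic_pair hB h (hpack a ha b hb)).1)
    ⟨p, hp, Finset.sum_lt_sum (fun b hb => (periodic_pair hB h (hpack p hp b hb)).1)
      ⟨q, hq, (periodic_pair hB h (hpack p hp q hq)).2 v hv hne⟩⟩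
  rw [Finset.sum_congr rfl fun a ha => show ∑ b ∈ t, (if a = b then f 0 else 0) = f 0 by simp [ha],
    Finset.sum_const, nsmul_eq_mul] at hsum
  have hmul := (lp_double_sum hB h t).trans_lt (mul_lt_mul_of_pos_left hsum (abs_pos.2 hB))
  rw [show |B.det| * ((t.card : ℝ) * f 0) = (t.card : ℝ) * (|B.det| * f 0) by ring, ← heq] at hmul
  linarith

theorem apply_zero_nonneg {f F : (Fin n → ℝ) → ℝ} (h : IsTestFunction f F) : 0 ≤ f 0 := by
  have hb := periodic_bound_nonempty (B := 1) (by simp) h {0} (fun p hp q hq v => ?_)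
    (Finset.singleton_nonempty 0)
  · have hF := h.nonneg 0
    simp at hb
    linarith
  rw [Finset.mem_singleton] at hp hq
  subst hp hq
  rcases eq_or_ne v 0 with rfl | hv
  · exact Or.inl ⟨rfl, rfl⟩
  obtain ⟨i, hi⟩ := Function.ne_iff.1 hv
  refine Or.inr (le_trans ?_ (Finset.single_le_sum (fun j _ => sq_nonneg _) (Finset.mem_univ i)))
  have : (1 : ℝ) ≤ (v i : ℝ) ^ 2 := by
    exact_mod_cast (show (1 : ℤ) ≤ v i ^ 2 from Int.add_one_le_iff.2 (pow_two_pos_of_ne_zero hi))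
  simpa [ofInt] using this

/-- **Cohn and Elkies**, periodic packings. -/
theorem periodic_bound {B : Matrix (Fin n) (Fin n) ℝ} (hB : B.det ≠ 0)
    {f F : (Fin n → ℝ) → ℝ} (h : IsTestFunction f F) (t : Finset (Fin n → ℝ))
    (hpack : ∀ p ∈ t, ∀ q ∈ t, ∀ v : Fin n → ℤ,
      (p = q ∧ v = 0) ∨ 1 ≤ ∑ i, (p - q + B *ᵥ ofInt v) i ^ 2) :
    (t.card : ℝ) * F 0 ≤ |B.det| * f 0 := by
  rcases t.eq_empty_or_nonempty with rfl | ht
  · simpa using mul_nonneg (abs_nonneg B.det) (apply_zero_nonneg h)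
  · exact periodic_bound_nonempty hB h t hpack ht

/-- A finite packing in a cube. -/
theorem cube_bound {f F : (Fin n → ℝ) → ℝ} (h : IsTestFunction f F) {R : ℝ} (hR : 0 ≤ R)
    (t : Finset (Fin n → ℝ)) (hcube : ∀ p ∈ t, ∀ i, p i ∈ Set.Icc 0 R)
    (hdist : ∀ p ∈ t, ∀ q ∈ t, p ≠ q → 1 ≤ ∑ i, (p i - q i) ^ 2) :
    (t.card : ℝ) * F 0 ≤ (R + 1) ^ n * f 0 := by
  have hdet : ((R + 1) • (1 : Matrix (Fin n) (Fin n) ℝ)).det = (R + 1) ^ n := by simp
  have hpos : 0 < (R + 1) ^ n := by positivity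
  have hb := periodic_bound (B := (R + 1) • 1) (by rw [hdet]; exact hpos.ne') h t
    fun p hp q hq v => ?_
  · rwa [hdet, abs_of_pos hpos] at hb
  have he : ∀ i, (p - q + ((R + 1) • (1 : Matrix (Fin n) (Fin n) ℝ)) *ᵥ ofInt v) i =
      p i - q i + (R + 1) * v i := fun i => by
    simp [Matrix.smul_mulVec, ofInt]
  simp only [he]
  rcases eq_or_ne v 0 with rfl | hv
  · rcases eq_or_ne p q with rfl | hpq
    · exact Or.inl ⟨rfl, rfl⟩
    · exact Or.inr (by simpa using hdist p hp q hq hpq)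
  · obtain ⟨i, hi⟩ := Function.ne_iff.1 hv
    refine Or.inr (le_trans ?_ (Finset.single_le_sum (f := fun j => (p j - q j + (R + 1) * v j) ^ 2)
      (fun j _ => sq_nonneg _) (Finset.mem_univ i)))
    obtain ⟨a1, a2⟩ := hcube p hp i
    obtain ⟨b1, b2⟩ := hcube q hq i
    rcases lt_or_gt_of_ne (show v i ≠ 0 from hi) with h' | h'
    · have h1 := mul_le_mul_of_nonneg_left
        (show (v i : ℝ) ≤ -1 by exact_mod_cast (show v i ≤ -1 by omega))
        (show 0 ≤ R + 1 by linarith)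
      have h2 : p i - q i + (R + 1) * v i ≤ -1 := by linarith
      nlinarith
    · have h1 := mul_le_mul_of_nonneg_left
        (show (1 : ℝ) ≤ v i by exact_mod_cast (show (1 : ℤ) ≤ v i by omega))
        (show 0 ≤ R + 1 by linarith)
      have h2 : 1 ≤ p i - q i + (R + 1) * v i := by linarith
      nlinarith

end FA.PackingLP

end
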