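import Fermat.Agent.HeckeFE.Poisson
import Mathlib.MeasureTheory.Integral.Pi
import Mathlib.Analysis.SpecialFunctions.ImproperIntegrals
import Mathlib.Analysis.PSeries

/-!
# Poisson summation under polynomial decay

For `f` continuous with `(1 + |x|²) ^ n |f x|` bounded and absolutely summable Fourier coefficients.
-/

set_option autoImplicit false
set_option linter.style.haveILetI false

noncomputable section

open MeasureTheory Complex Matrix Set UnitAddTorus
open scoped Real

namespace FA.PackingLP

open FA.HeckeFE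

local instance instMeasureSpaceUnit : MeasureSpace UnitAddCircle := ⟨AddCircle.haarAddCircle⟩

local instance instHaarUnit : Measure.IsAddHaarMeasure (volume : Measure UnitAddCircle) :=
  inferInstanceAs (Measure.IsAddHaarMeasure AddCircle.haarAddCircle)

local instance instProbUnit : IsProbabilityMeasure (volume : Measure UnitAddCircle) :=
  inferInstanceAs (IsProbabilityMeasure AddCircle.haarAddCircle)

variable {n : ℕ}

/-- The radial weight. -/
def radialWeight (x : Fin n → ℝ) : ℝ := ((1 + ∑ i, x i ^ 2) ^ n)⁻¹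

/-- Decay like `|x| ^ (-2 n)`. -/
def HasDecay {E : Type*} [Norm E] (f : (Fin n → ℝ) → E) : Prop :=
  ∃ C : ℝ, ∀ x, ‖f x‖ ≤ C * radialWeight x

/-- The product weight. -/
def prodWeight (x : Fin n → ℝ) : ℝ := ∏ i, (1 + x i ^ 2)⁻¹

theorem radialWeight_pos (x : Fin n → ℝ) : 0 < radialWeight x := by
  have : 0 ≤ ∑ i, x i ^ 2 := Finset.sum_nonneg fun i _ => sq_nonneg _
  unfold radialWeight
  positivity

theorem prodWeight_pos (x : Fin n → ℝ) : 0 < prodWeight x :=
  Finset.prod_pos fun i _ => by positivity

theorem radialWeight_le (x : Fin n → ℝ) : radialWeight x ≤ prodWeight x := by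
  rw [radialWeight, prodWeight, Finset.prod_inv_distrib]
  refine inv_anti₀ (Finset.prod_pos fun i _ => by positivity) ?_
  calc ∏ i, (1 + x i ^ 2) ≤ ∏ _i : Fin n, (1 + ∑ j, x j ^ 2) := by
        refine Finset.prod_le_prod (fun i _ => by positivity) fun i _ => ?_
        linarith [Finset.single_le_sum (f := fun j => x j ^ 2) (fun j _ => sq_nonneg _)
          (Finset.mem_univ i)]
    _ = _ := by simp

theorem HasDecay.bound {E : Type*} [NormedAddCommGroup E] {f : (Fin n → ℝ) → E}
    (hf : HasDecay f) : ∃ C, 0 ≤ C ∧ ∀ x, ‖f x‖ ≤ C * prodWeight x := by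
  obtain ⟨C, hC⟩ := hf
  refine ⟨|C|, abs_nonneg C, fun x => (hC x).trans ?_⟩
  exact mul_le_mul (le_abs_self C) (radialWeight_le x) (radialWeight_pos x).le (abs_nonneg C)

theorem prodWeight_add_le (t : Fin n → ℝ) (v : Fin n → ℝ) :
    prodWeight (t + v) ≤ (∏ i, (2 * (1 + t i ^ 2))) * prodWeight v := by
  rw [prodWeight, prodWeight, ← Finset.prod_mul_distrib]
  refine Finset.prod_le_prod (fun i _ => by positivity) fun i _ => ?_
  rw [← div_eq_mul_inv, le_div_iff₀ (by positivity), inv_mul_le_iff₀ (by positivity), Pi.add_apply]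
  nlinarith [sq_nonneg (t i + (t i + v i)), mul_nonneg (sq_nonneg (t i)) (sq_nonneg (t i + v i)),
    sq_nonneg (t i), sq_nonneg (t i + v i)]

theorem summable_prodWeight : Summable fun v : Fin n → ℤ => prodWeight (ofInt v) := by
  have h1 : Summable fun k : ℤ => (1 + (k : ℝ) ^ 2)⁻¹ := by
    refine Summable.of_norm_bounded_eventually (Real.summable_one_div_int_pow.2 one_lt_two) ?_
    filter_upwards [(Set.finite_singleton (0 : ℤ)).compl_mem_cofinite] with k hk
    have hk0 : (0 : ℝ) < (k : ℝ) ^ 2 := by
      have : (k : ℝ) ≠ 0 := Int.cast_ne_zero.2 hk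
      positivity
    rw [Real.norm_of_nonneg (by positivity), one_div]
    exact inv_anti₀ hk0 (by linarith)
  exact summable_pi_prod (fun k => by positivity) h1

theorem integrable_prodWeight : Integrable (prodWeight : (Fin n → ℝ) → ℝ) :=
  Integrable.fintype_prod fun _ => integrable_inv_one_add_sq

theorem prodWeight_shift {x : Fin n → ℝ} {R : ℝ} (hR : ∀ i, |x i| ≤ R) (v : Fin n → ℤ) :
    prodWeight (x + ofInt v) ≤ (2 * (1 + R ^ 2)) ^ n * prodWeight (ofInt v) := by
  refine (prodWeight_add_le x (ofInt v)).trans
    (mul_le_mul_of_nonneg_right ?_ (prodWeight_pos _).le)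
  calc ∏ i, (2 * (1 + x i ^ 2)) ≤ ∏ _i : Fin n, (2 * (1 + R ^ 2)) := by
        refine Finset.prod_le_prod (fun i _ => by positivity) fun i _ => ?_
        nlinarith [sq_le_sq' (abs_le.1 (hR i)).1 (abs_le.1 (hR i)).2]
    _ = _ := by simp

/-- **Poisson summation.** -/
theorem poisson_decay {H : (Fin n → ℝ) → ℂ} (hH : Continuous H) (hd : HasDecay H)
    {c : (Fin n → ℤ) → ℂ}
    (hc : ∀ m, ∫ x : Fin n → ℝ, mFourier (-m) (toTorus x) * H x = c m) (hcs : Summable c)
    (t : Fin n → ℝ) :
    ∑' v : Fin n → ℤ, H (t + ofInt v) = ∑' m : Fin n → ℤ, c m * mFourier m (toTorus t) := by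
  obtain ⟨C, hC0, hb⟩ := hd.bound
  set F : (Fin n → ℝ) → ℂ := fun x => ∑' v : Fin n → ℤ, H (x + ofInt v) with hF
  have hFcont : Continuous F := by
    refine continuous_iff_continuousAt.2 fun x => ?_
    refine ContinuousOn.continuousAt (s := Metric.closedBall x 1) ?_
      (Metric.closedBall_mem_nhds x one_pos)
    refine continuousOn_tsum (fun v => (hH.comp (continuous_id.add continuous_const)).continuousOn)
      (summable_prodWeight.mul_left (C * (2 * (1 + (‖x‖ + 1) ^ 2)) ^ n)) fun v t ht => ?_
    refine (hb _).trans ?_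
    rw [mul_assoc]
    refine mul_le_mul_of_nonneg_left (prodWeight_shift (fun i => ?_) v) hC0
    have h1 : ‖t - x‖ ≤ 1 := mem_closedBall_iff_norm.1 ht
    have h2 := norm_le_pi_norm t i
    have h3 := norm_le_norm_add_norm_sub' t x
    rw [Real.norm_eq_abs] at h2
    linarith
  let sec : UnitAddTorus (Fin n) → Fin n → ℝ := fun θ i => (AddCircle.equivIoc 1 0 (θ i) : ℝ)
  have hq : Topology.IsQuotientMap (toTorus (ι := Fin n)) :=
    (IsOpenQuotientMap.piMap (f := fun (_ : Fin n) (x : ℝ) => (x : UnitAddCircle))
      fun _ => QuotientAddGroup.isOpenQuotientMap_mk).isQuotientMap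
  have hper : ∀ x, F (sec (toTorus x)) = F x := fun x => by
    obtain ⟨k, hk⟩ : ∃ k : Fin n → ℤ, sec (toTorus x) = x + ofInt k := by
      have : ∀ i, ∃ k : ℤ, sec (toTorus x) i = x i + k := fun i => by
        have h1 : ((sec (toTorus x) i : ℝ) : UnitAddCircle) = (x i : UnitAddCircle) :=
          (AddCircle.equivIoc 1 0).symm_apply_apply _
        rw [QuotientAddGroup.eq_iff_sub_mem, AddSubgroup.mem_zmultiples_iff] at h1
        obtain ⟨k, hk⟩ := h1
        refine ⟨k, ?_⟩
        rw [zsmul_one] at hk
        linarith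
      choose k hk using this
      exact ⟨k, funext hk⟩
    simp only [hF, hk]
    rw [← (Equiv.addLeft k).tsum_eq fun v => H (x + ofInt v)]
    refine tsum_congr fun v => ?_
    congr 1
    funext i
    simp [ofInt, add_assoc]
  let G : C(UnitAddTorus (Fin n), ℂ) := ⟨fun θ => F (sec θ), hq.continuous_iff.2 (by
    have : (fun θ => F (sec θ)) ∘ toTorus = F := funext hper
    rw [this]; exact hFcont)⟩
  have hcoef : mFourierCoeff G = c := funext fun m => by
    rw [mFourierCoeff_eq_integral _ m 0, ← hc m]
    set P : (Fin n → ℝ) → ℂ := fun x => mFourier (-m) (toTorus x) * H x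
    have hnorm : ∀ x, ‖P x‖ ≤ C * prodWeight x := fun x => by
      refine le_of_eq_of_le ?_ (hb x)
      simp only [P, norm_mul, mFourier_toTorus, Complex.norm_exp]
      simp
    have hbox : {x : Fin n → ℝ | ∀ i, x i ∈ Ioc ((0 : Fin n → ℝ) i) ((0 : Fin n → ℝ) i + 1)} =
        box 0 := by
      simp [box]
    rw [hbox]
    have hpt : EqOn (fun x : Fin n → ℝ => mFourier (-m) (fun i => (x i : UnitAddCircle)) •
        G (fun i => (x i : UnitAddCircle))) (fun x => ∑' v : Fin n → ℤ, P (x + ofInt v)) (box 0) :=
      fun x _ => by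
      show mFourier (-m) (toTorus x) • F (sec (toTorus x)) = _
      rw [hper, hF, smul_eq_mul, ← tsum_mul_left]
      exact tsum_congr fun v => by simp only [P, mFourier_toTorus_add]
    rw [setIntegral_congr_fun (measurableSet_box 0) hpt]
    have hPc : Continuous P := ((mFourier (-m)).continuous.comp hq.continuous).mul hH
    have hint : ∀ v, IntegrableOn (fun x => P (x + ofInt v)) (box 0) := fun v =>
      ((hPc.comp (continuous_id.add continuous_const)).continuousOn.integrableOn_compact
        (isCompact_univ_pi fun _ : Fin n => isCompact_Icc (a := (0 : ℝ)) (b := 1))).mono_set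
        (fun x hx i _ => by
          have h := hx i
          simp only [Pi.zero_apply, Int.cast_zero, zero_add, mem_Ioc] at h
          exact ⟨h.1.le, h.2⟩)
    have hbd : ∀ v, ∫ x in box 0, ‖P (x + ofInt v)‖ ≤ volume.real (box (0 : Fin n → ℤ)) *
        (C * (2 * (1 + 1 ^ 2)) ^ n * prodWeight (ofInt v)) := fun v => by
      rw [← smul_eq_mul, ← setIntegral_const]
      refine setIntegral_mono_on (hint v).norm (integrableOn_const volume_box_zero_lt_top.ne)
        (measurableSet_box 0) fun x hx => ?_
      refine (hnorm _).trans ?_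
      rw [mul_assoc]
      refine mul_le_mul_of_nonneg_left (prodWeight_shift (fun i => ?_) v) hC0
      have h := hx i
      simp only [Pi.zero_apply, Int.cast_zero, zero_add, mem_Ioc] at h
      rw [abs_le]
      constructor <;> linarith
    rw [← integral_tsum_of_summable_integral_norm hint
      (Summable.of_nonneg_of_le (fun v => integral_nonneg fun _ => norm_nonneg _) hbd
        ((summable_prodWeight.mul_left _).mul_left _))]
    have htr : ∀ v, ∫ x in box 0, P (x + ofInt v) = ∫ x in box v, P x := fun v => by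
      rw [← (measurePreserving_add_right volume (ofInt v)).setIntegral_preimage_emb
        (measurableEmbedding_addRight _) P (box v)]
      congr 2
      ext x
      exact (add_mem_box_iff x v).symm
    simp only [htr]
    have hPi : Integrable P :=
      (integrable_prodWeight.const_mul C).mono' hPc.aestronglyMeasurable
        (Filter.Eventually.of_forall hnorm)
    have hu := hasSum_integral_iUnion (fun v : Fin n → ℤ => measurableSet_box v)
      pairwise_disjoint_box (f := P) hPi.integrableOn
    rw [iUnion_box, setIntegral_univ] at hu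
    exact hu.tsum_eq
  have hval := (hasSum_mFourier_series_apply_of_summable (f := G) (by rw [hcoef]; exact hcs)
    (toTorus t)).tsum_eq
  rw [show G (toTorus t) = ∑' v : Fin n → ℤ, H (t + ofInt v) from hper t, hcoef] at hval
  exact hval.symm

end FA.PackingLP

end
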