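import Fermat.Agent.PackingLP.Bound
import Mathlib.MeasureTheory.Measure.Lebesgue.VolumeOfBalls
import Mathlib.Analysis.Normed.Module.Ball.Pointwise

/-!
# The bound of Cohn and Elkies for packings of balls

Scaling by `(2 r)⁻¹` turns disjoint balls of radius `r` into points at distances at least `1`.
-/

set_option autoImplicit false

noncomputable section

open MeasureTheory Matrix Set

namespace FA.PackingLP

open FA.HeckeFE

variable {n : ℕ}

/-- The volume of a ball. -/
def ballVolume (n : ℕ) (r : ℝ) : ℝ := volume.real (Metric.ball (0 : EuclideanSpace ℝ (Fin n)) r)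

theorem ballVolume_eq {r : ℝ} (hr : 0 < r) :
    ballVolume n r = (2 * r) ^ n * ballVolume n (1 / 2) := by
  have key : ∀ s : ℝ, 0 < s → ballVolume n s = s ^ n * ballVolume n 1 := fun s hs => by
    rw [ballVolume, ballVolume, measureReal_def, measureReal_def,
      Measure.addHaar_ball_of_pos volume _ hs, ENNReal.toReal_mul,
      ENNReal.toReal_ofReal (pow_nonneg hs.le _), finrank_euclideanSpace_fin]
  rw [key r hr, key (1 / 2) (by norm_num), ← mul_assoc, ← mul_pow]
  congr 2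
  ring

theorem ballVolume_nonneg (r : ℝ) : 0 ≤ ballVolume n r := measureReal_nonneg

theorem sum_sq_eq_dist_sq (x y : EuclideanSpace ℝ (Fin n)) :
    ∑ i, (x i - y i) ^ 2 = dist x y ^ 2 := by
  rw [dist_eq_norm, EuclideanSpace.real_norm_sq_eq]
  simp

/-- The centres of disjoint balls, scaled, are at distances at least one. -/
theorem scaled_separated {r : ℝ} (hr : 0 < r) {B : Matrix (Fin n) (Fin n) ℝ}
    (t : Finset (EuclideanSpace ℝ (Fin n)))
    (hpack : Pairwise fun a b : t × (Fin n → ℤ) =>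
      Disjoint (Metric.ball ((a.1 : EuclideanSpace ℝ (Fin n)) + WithLp.toLp 2 (B *ᵥ ofInt a.2)) r)
        (Metric.ball ((b.1 : EuclideanSpace ℝ (Fin n)) + WithLp.toLp 2 (B *ᵥ ofInt b.2)) r))
    {p q : EuclideanSpace ℝ (Fin n)} (hp : p ∈ t) (hq : q ∈ t) (v : Fin n → ℤ) :
    (p = q ∧ v = 0) ∨
      1 ≤ ∑ i, ((2 * r)⁻¹ * p i - (2 * r)⁻¹ * q i + (2 * r)⁻¹ * (B *ᵥ ofInt v) i) ^ 2 := by
  rcases eq_or_ne ((⟨p, hp⟩ : t), v) ((⟨q, hq⟩ : t), (0 : Fin n → ℤ)) with he | he
  · exact Or.inl ⟨congrArg Subtype.val (Prod.ext_iff.1 he).1, (Prod.ext_iff.1 he).2⟩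
  refine Or.inr ?_
  have hd := (sq_le_sq₀ (by positivity) dist_nonneg).2
    ((disjoint_ball_ball_iff hr hr).1 (hpack he))
  rw [← sum_sq_eq_dist_sq] at hd
  simp only [zero_mulVec_ofInt, WithLp.toLp_zero, add_zero] at hd
  have he' : ∀ i, (2 * r)⁻¹ * p i - (2 * r)⁻¹ * q i + (2 * r)⁻¹ * (B *ᵥ ofInt v) i =
      (2 * r)⁻¹ * (p i + (B *ᵥ ofInt v) i - q i) := fun i => by ring
  simp only [he', mul_pow, ← Finset.mul_sum]
  calc (1 : ℝ) = (2 * r)⁻¹ ^ 2 * (r + r) ^ 2 := by
        rw [← mul_pow, ← two_mul, inv_mul_cancel₀ (by positivity), one_pow]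
    _ ≤ _ := mul_le_mul_of_nonneg_left (hd.trans_eq (by simp)) (sq_nonneg _)

/-- **Cohn and Elkies**: periodic packings of balls. -/
theorem periodic_density {f F : (Fin n → ℝ) → ℝ} (h : IsTestFunction f F) {r : ℝ} (hr : 0 < r)
    {B : Matrix (Fin n) (Fin n) ℝ} (hB : B.det ≠ 0) (t : Finset (EuclideanSpace ℝ (Fin n)))
    (hpack : Pairwise fun a b : t × (Fin n → ℤ) =>
      Disjoint (Metric.ball ((a.1 : EuclideanSpace ℝ (Fin n)) + WithLp.toLp 2 (B *ᵥ ofInt a.2)) r)
        (Metric.ball ((b.1 : EuclideanSpace ℝ (Fin n)) + WithLp.toLp 2 (B *ᵥ ofInt b.2)) r)) :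
    (t.card : ℝ) * ballVolume n r * F 0 ≤ |B.det| * ballVolume n (1 / 2) * f 0 := by
  set s := (2 * r)⁻¹ with hs
  have hs0 : 0 < s := by positivity
  let φ : EuclideanSpace ℝ (Fin n) → (Fin n → ℝ) := fun p i => s * p i
  have hφ : Function.Injective φ := fun p q h => by
    ext i
    exact mul_left_cancel₀ hs0.ne' (congrFun h i)
  have hdet : (s • B).det = s ^ n * B.det := by simp
  have hb := periodic_bound (B := s • B) (by rw [hdet]; exact mul_ne_zero (by positivity) hB) h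
    (t.image φ) fun p hp q hq v => ?_
  · rw [Finset.card_image_of_injective _ hφ, hdet, abs_mul, abs_of_pos (pow_pos hs0 n)] at hb
    have hV : 0 ≤ ballVolume n r := ballVolume_nonneg r
    calc (t.card : ℝ) * ballVolume n r * F 0 = ballVolume n r * (t.card * F 0) := by ring
      _ ≤ ballVolume n r * (s ^ n * |B.det| * f 0) := mul_le_mul_of_nonneg_left hb hV
      _ = ((2 * r) ^ n * s ^ n) * (|B.det| * ballVolume n (1 / 2) * f 0) := by
          rw [ballVolume_eq hr]; ring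
      _ = _ := by rw [← mul_pow, hs, mul_inv_cancel₀ (by positivity), one_pow, one_mul]
  obtain ⟨p, hp', rfl⟩ := Finset.mem_image.1 hp
  obtain ⟨q, hq', rfl⟩ := Finset.mem_image.1 hq
  refine (scaled_separated hr t hpack hp' hq' v).imp (fun e => ⟨by rw [e.1], e.2⟩) fun e => ?_
  refine e.trans_eq (Finset.sum_congr rfl fun i _ => ?_)
  simp only [φ, hs, Pi.add_apply, Pi.sub_apply, Matrix.smul_mulVec, Pi.smul_apply, smul_eq_mul]

theorem coord_mem_of_ball_subset {r S : ℝ} {p : EuclideanSpace ℝ (Fin n)}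
    (hr : 0 < r) (h : ∀ x ∈ Metric.ball p r, ∀ i, x i ∈ Icc 0 S) (i : Fin n) :
    p i ∈ Icc r (S - r) := by
  have key : ∀ e : ℝ, |e| < r → p i + e ∈ Icc 0 S := fun e he => by
    have hx := h (p + EuclideanSpace.single i e) (by simpa using he) i
    simpa using hx
  obtain ⟨h1, h2⟩ : 0 ≤ p i ∧ p i ≤ S := by simpa using key 0 (by simpa using hr)
  refine ⟨le_of_forall_lt fun u hu => ?_, le_sub_iff_add_le.2 (le_of_forall_lt fun u hu => ?_)⟩
  · by_contra hc
    rw [not_lt] at hc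
    have hu0 : 0 ≤ u := h1.trans hc
    have := (key (-((u + r) / 2)) (by rw [abs_neg, abs_of_nonneg (by linarith)]; linarith)).1
    linarith
  · by_contra hc
    rw [not_lt] at hc
    have := (key ((u - p i + r) / 2) (by rw [abs_of_nonneg (by linarith)]; linarith)).2
    linarith

/-- **Cohn and Elkies**: disjoint balls in a cube. -/
theorem cube_density {f F : (Fin n → ℝ) → ℝ} (h : IsTestFunction f F) (hn : n ≠ 0) {r S : ℝ}
    (hr : 0 < r) (t : Finset (EuclideanSpace ℝ (Fin n)))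
    (hcube : ∀ p ∈ t, ∀ x ∈ Metric.ball p r, ∀ i, x i ∈ Icc 0 S)
    (hdisj : (t : Set (EuclideanSpace ℝ (Fin n))).PairwiseDisjoint fun p => Metric.ball p r)
    (hS : 0 ≤ S) :
    (t.card : ℝ) * ballVolume n r * F 0 ≤ S ^ n * ballVolume n (1 / 2) * f 0 := by
  rcases t.eq_empty_or_nonempty with rfl | ⟨p₀, hp₀⟩
  · simpa using mul_nonneg (mul_nonneg (pow_nonneg hS n) (ballVolume_nonneg (1 / 2)))
      (apply_zero_nonneg h)
  set s := (2 * r)⁻¹ with hs
  have hs0 : 0 < s := by positivity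
  have hrs : s * (2 * r) = 1 := inv_mul_cancel₀ (by positivity)
  obtain ⟨a, b⟩ := coord_mem_of_ball_subset hr (hcube p₀ hp₀) ⟨0, Nat.pos_of_ne_zero hn⟩
  have hR : 0 ≤ s * S - 1 := by nlinarith
  let φ : EuclideanSpace ℝ (Fin n) → (Fin n → ℝ) := fun p i => s * (p i - r)
  have hφ : Function.Injective φ := fun p q h => by
    ext i
    linarith [mul_left_cancel₀ hs0.ne' (congrFun h i)]
  have hb := cube_bound h hR (t.image φ) (fun p hp i => ?_) fun p hp q hq hpq => ?_
  · rw [Finset.card_image_of_injective _ hφ, sub_add_cancel, mul_pow] at hb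
    calc (t.card : ℝ) * ballVolume n r * F 0 = ballVolume n r * (t.card * F 0) := by ring
      _ ≤ ballVolume n r * (s ^ n * S ^ n * f 0) :=
          mul_le_mul_of_nonneg_left hb (ballVolume_nonneg r)
      _ = ((2 * r) ^ n * s ^ n) * (S ^ n * ballVolume n (1 / 2) * f 0) := by
          rw [ballVolume_eq hr]; ring
      _ = _ := by rw [← mul_pow, mul_comm (2 * r) s, hrs, one_pow, one_mul]
  · obtain ⟨p, hp', rfl⟩ := Finset.mem_image.1 hp
    obtain ⟨a, b⟩ := coord_mem_of_ball_subset hr (hcube p hp') i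
    exact ⟨mul_nonneg hs0.le (by linarith), by simp only [φ]; nlinarith⟩
  · obtain ⟨p, hp', rfl⟩ := Finset.mem_image.1 hp
    obtain ⟨q, hq', rfl⟩ := Finset.mem_image.1 hq
    have hne : p ≠ q := fun e => hpq (congrArg φ e)
    have hd := (sq_le_sq₀ (by positivity) dist_nonneg).2
      ((disjoint_ball_ball_iff hr hr).1 (hdisj hp' hq' hne))
    rw [← sum_sq_eq_dist_sq] at hd
    simp only [φ, ← mul_sub, sub_sub_sub_cancel_right, mul_pow, ← Finset.mul_sum]
    calc (1 : ℝ) = s ^ 2 * (r + r) ^ 2 := by rw [← mul_pow, ← two_mul, hrs, one_pow]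
      _ ≤ _ := mul_le_mul_of_nonneg_left hd (sq_nonneg s)

end FA.PackingLP

end
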