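import Fermat.Agent.UnimodularTheta.Lattice
import Mathlib.LinearAlgebra.FreeModule.Finite.CardQuotient
import Mathlib.LinearAlgebra.FreeModule.PID

/-!
# A periodic set with even squared distances

If the squared distances of the `N` translates `t + M ℤⁿ`, `|det M| = N`, are even integers, the
set is a translate of an even unimodular lattice: the differences generate a lattice of covolume at
most one with integral inner products, so of covolume one, and there is no room for more points.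
-/

set_option autoImplicit false

noncomputable section

open Matrix

namespace FA.PackingLP

open FA.HeckeFE FA.UnimodularTheta

variable {n : ℕ}

theorem realMat_mulVec_ofInt (A : Matrix (Fin n) (Fin n) ℤ) (z : Fin n → ℤ) :
    realMat A *ᵥ ofInt z = ofInt (A *ᵥ z) :=
  (funext fun i => RingHom.map_mulVec (Int.castRingHom ℝ) A z i).symm

theorem ofInt_single (j : Fin n) : ofInt (Pi.single j (1 : ℤ)) = Pi.single j (1 : ℝ) := by
  funext i
  rcases eq_or_ne i j with rfl | h <;> simp [ofInt, *]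

/-- A lattice inside another is given by an integral matrix. -/
theorem exists_factor {B C : Matrix (Fin n) (Fin n) ℝ}
    (h : ∀ z, ∃ w, B *ᵥ ofInt z = C *ᵥ ofInt w) :
    ∃ A : Matrix (Fin n) (Fin n) ℤ, B = C * realMat A := by
  choose w hw using fun j : Fin n => h (Pi.single j 1)
  refine ⟨Matrix.of fun i j => w j i, Matrix.ext fun i j => ?_⟩
  have h1 := congrFun (hw j) i
  rw [ofInt_single, Matrix.mulVec_single_one] at h1
  exact h1

/-- The norms of a lattice with integral Gram matrix. -/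
theorem norm_of_gram {W : Matrix (Fin n) (Fin n) ℝ} {P : Matrix (Fin n) (Fin n) ℤ}
    (h : Wᵀ * W = realMat P) (z : Fin n → ℤ) :
    (W *ᵥ ofInt z) ⬝ᵥ (W *ᵥ ofInt z) = (normQ P z : ℝ) := by
  rw [← realMat_normQ, ← h, ← mulVec_mulVec, dotProduct_mulVec (ofInt z) Wᵀ, vecMul_transpose]

/-- **A set with even squared distances and one point per unit volume.** -/
theorem lattice_of_even {M : Matrix (Fin n) (Fin n) ℝ} (hM : M.det ≠ 0)
    {t : Finset (Fin n → ℝ)}
    (heven : ∀ p ∈ t, ∀ q ∈ t, ∀ v : Fin n → ℤ,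
      ∃ k : ℤ, (p - q + M *ᵥ ofInt v) ⬝ᵥ (p - q + M *ᵥ ofInt v) = 2 * k)
    (hinj : ∀ p ∈ t, ∀ q ∈ t, ∀ v : Fin n → ℤ, p - q + M *ᵥ ofInt v = 0 → p = q)
    (hdet : |M.det| = t.card) {p₀ : Fin n → ℝ} (hp₀ : p₀ ∈ t) :
    ∃ (P : Matrix (Fin n) (Fin n) ℤ) (W : Matrix (Fin n) (Fin n) ℝ), IsEvenUnimodular P ∧
      Wᵀ * W = realMat P ∧ (∀ p ∈ t, ∀ v, ∃ z, p + M *ᵥ ofInt v = p₀ + W *ᵥ ofInt z) ∧
      ∀ z, ∃ p ∈ t, ∃ v, p + M *ᵥ ofInt v = p₀ + W *ᵥ ofInt z := by
  have hzero : M *ᵥ ofInt (0 : Fin n → ℤ) = 0 := by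
    rw [show ofInt (0 : Fin n → ℤ) = 0 from funext fun i => by simp [ofInt], mulVec_zero]
  have hadd : ∀ v w : Fin n → ℤ, ofInt (v + w) = ofInt v + ofInt w := fun v w =>
    funext fun i => by simp [ofInt]
  have hsub : ∀ v w : Fin n → ℤ, ofInt (v - w) = ofInt v - ofInt w := fun v w =>
    funext fun i => by simp [ofInt]
  set D : Set (Fin n → ℝ) := {x | ∃ p ∈ t, ∃ v, x = p - p₀ + M *ᵥ ofInt v} with hD
  set L := AddSubgroup.closure D
  -- inner products
  have hnorm : ∀ x ∈ D, ∃ k : ℤ, x ⬝ᵥ x = 2 * k := by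
    rintro _ ⟨p, hp, v, rfl⟩
    exact heven p hp p₀ hp₀ v
  have hDD : ∀ x ∈ D, ∀ y ∈ D, ∃ k : ℤ, x ⬝ᵥ y = k := by
    rintro _ ⟨p, hp, v, rfl⟩ _ ⟨q, hq, w, rfl⟩
    obtain ⟨a, ha⟩ := heven p hp p₀ hp₀ v
    obtain ⟨b, hb⟩ := heven q hq p₀ hp₀ w
    obtain ⟨c, hc⟩ := heven p hp q hq (v - w)
    rw [hsub, mulVec_sub, show p - q + (M *ᵥ ofInt v - M *ᵥ ofInt w) =
      p - p₀ + M *ᵥ ofInt v - (q - p₀ + M *ᵥ ofInt w) by abel] at hc
    generalize p - p₀ + M *ᵥ ofInt v = x at ha hc ⊢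
    generalize q - p₀ + M *ᵥ ofInt w = y at hb hc ⊢
    refine ⟨a + b - c, ?_⟩
    rw [sub_dotProduct, dotProduct_sub, dotProduct_sub, dotProduct_comm y x] at hc
    push_cast
    linarith
  have hLD : ∀ x ∈ L, ∀ y ∈ D, ∃ k : ℤ, x ⬝ᵥ y = k := fun x hx y hy => by
    induction hx using AddSubgroup.closure_induction with
    | mem x hx => exact hDD x hx y hy
    | zero => exact ⟨0, by simp⟩
    | add a b _ _ iha ihb =>
      obtain ⟨i, hi⟩ := iha
      obtain ⟨j, hj⟩ := ihb
      exact ⟨i + j, by rw [add_dotProduct, hi, hj, Int.cast_add]⟩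
    | neg a _ iha =>
      obtain ⟨i, hi⟩ := iha
      exact ⟨-i, by rw [neg_dotProduct, hi, Int.cast_neg]⟩
  have hLL : ∀ x ∈ L, ∀ y ∈ L, ∃ k : ℤ, x ⬝ᵥ y = k := fun x hx y hy => by
    induction hy using AddSubgroup.closure_induction with
    | mem y hy => exact hLD x hx y hy
    | zero => exact ⟨0, by simp⟩
    | add a b _ _ iha ihb =>
      obtain ⟨i, hi⟩ := iha
      obtain ⟨j, hj⟩ := ihb
      exact ⟨i + j, by rw [dotProduct_add, hi, hj, Int.cast_add]⟩
    | neg a _ iha =>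
      obtain ⟨i, hi⟩ := iha
      exact ⟨-i, by rw [dotProduct_neg, hi, Int.cast_neg]⟩
  have hLe : ∀ x ∈ L, ∃ k : ℤ, x ⬝ᵥ x = 2 * k := fun x hx => by
    induction hx using AddSubgroup.closure_induction with
    | mem x hx => exact hnorm x hx
    | zero => exact ⟨0, by simp⟩
    | add a b ha hb iha ihb =>
      obtain ⟨i, hi⟩ := iha
      obtain ⟨j, hj⟩ := ihb
      obtain ⟨k, hk⟩ := hLL a ha b hb
      refine ⟨i + j + k, ?_⟩
      rw [add_dotProduct, dotProduct_add, dotProduct_add, dotProduct_comm b a]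
      push_cast
      linarith
    | neg a _ iha => simpa using iha
  have hpL : ∀ p ∈ t, p - p₀ ∈ L := fun p hp =>
    AddSubgroup.subset_closure ⟨p, hp, 0, by rw [hzero, add_zero]⟩
  have hML : ∀ v, M *ᵥ ofInt v ∈ L := fun v =>
    AddSubgroup.subset_closure ⟨p₀, hp₀, v, by rw [sub_self, zero_add]⟩
  -- coordinates
  have hcoord : ∀ x ∈ L, ∃ y : Fin n → ℤ, Mᵀ *ᵥ x = ofInt y := fun x hx => by
    choose y hy using fun i : Fin n => hLL _ (hML (Pi.single i 1)) x hx
    refine ⟨y, funext fun i => Eq.trans ?_ (hy i)⟩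
    rw [ofInt_single, Matrix.mulVec_single_one]
    rfl
  let H : Submodule ℤ (Fin n → ℤ) := AddSubgroup.toIntSubmodule
    { carrier := {y | ∃ x ∈ L, Mᵀ *ᵥ x = ofInt y}
      zero_mem' := ⟨0, L.zero_mem, by funext i; simp [ofInt]⟩
      add_mem' := by
        rintro a b ⟨x, hx, hx'⟩ ⟨y, hy, hy'⟩
        exact ⟨x + y, L.add_mem hx hy, by rw [mulVec_add, hx', hy', hadd]⟩
      neg_mem' := by
        rintro a ⟨x, hx, hx'⟩
        exact ⟨-x, L.neg_mem hx, by rw [mulVec_neg, hx']; funext i; simp [ofInt]⟩ }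
  choose g hg using hcoord
  let G : Matrix (Fin n) (Fin n) ℤ := Matrix.of fun i j => g _ (hML (Pi.single j 1)) i
  have hG : realMat G = Mᵀ * M := Matrix.ext fun i j => by
    refine (congrFun (hg _ (hML (Pi.single j 1))) i).symm.trans ?_
    rw [ofInt_single, Matrix.mulVec_single_one]
    rfl
  have hG0 : G.det ≠ 0 := fun h => hM <| by
    have h2 : (realMat G).det = ((G.det : ℤ) : ℝ) := ((Int.castRingHom ℝ).map_det G).symm
    rw [hG, det_mul, det_transpose, h, Int.cast_zero] at h2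
    exact mul_self_eq_zero.1 h2
  have hGH : ∀ z, G.mulVecLin z ∈ H := fun z => ⟨M *ᵥ ofInt z, hML z, by
    rw [mulVec_mulVec, ← hG, realMat_mulVec_ofInt, Matrix.mulVecLin_apply]⟩
  have hGinj : Function.Injective G.mulVecLin := fun a b h => sub_eq_zero.1
    (Matrix.eq_zero_of_mulVec_eq_zero hG0 (by
      rw [mulVec_sub, ← Matrix.mulVecLin_apply, h, Matrix.mulVecLin_apply, sub_self]))
  have hrank : Module.finrank ℤ H = n := by
    refine le_antisymm ((Submodule.finrank_le H).trans_eq (Module.finrank_fin_fun ℤ)) ?_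
    refine (Module.finrank_fin_fun ℤ).symm.trans_le
      (LinearMap.finrank_le_finrank_of_injective (f := G.mulVecLin.codRestrict H hGH)
        fun a b h => hGinj (congrArg Subtype.val h))
  let bH := Module.finBasisOfFinrankEq ℤ H hrank
  choose x hxL hx using fun j => (bH j).2
  set W : Matrix (Fin n) (Fin n) ℝ := Matrix.of fun i j => x j i with hW
  have hWz : ∀ z, W *ᵥ ofInt z = ∑ j, (z j : ℝ) • x j := fun z => by
    funext i
    simp [hW, mulVec, dotProduct, ofInt, mul_comm]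
  have hWL : ∀ z, W *ᵥ ofInt z ∈ L := fun z => by
    rw [hWz]
    exact L.sum_mem fun j _ => by
      rw [Int.cast_smul_eq_zsmul]; exact L.zsmul_mem (hxL j) _
  have hMinj : Function.Injective fun u => Mᵀ *ᵥ u := mulVec_injective_of_isUnit
    ((Matrix.isUnit_iff_isUnit_det _).2 (isUnit_iff_ne_zero.2 (by rwa [det_transpose])))
  have hLW : ∀ u ∈ L, ∃ z, u = W *ᵥ ofInt z := fun u hu => by
    have hy : g u hu ∈ H := ⟨u, hu, hg u hu⟩
    refine ⟨bH.repr ⟨_, hy⟩, hMinj ?_⟩
    have hsum := congrArg Subtype.val (bH.sum_repr ⟨_, hy⟩)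
    show Mᵀ *ᵥ u = Mᵀ *ᵥ (W *ᵥ _)
    rw [hg u hu, hWz, mulVec_sum]
    simp only [mulVec_smul, hx]
    funext i
    have := congrArg (fun w : Fin n → ℤ => ((w i : ℤ) : ℝ)) hsum
    simp only [Submodule.coe_sum, SetLike.val_smul, Finset.sum_apply, Pi.smul_apply, smul_eq_mul,
      Int.cast_sum, Int.cast_mul] at this
    simp only [ofInt, Finset.sum_apply, Pi.smul_apply, smul_eq_mul]
    exact this.symm
  -- the index
  obtain ⟨A, hA⟩ := exists_factor fun z => hLW _ (hML z)
  have hdetA : |(A.det : ℝ)| * |W.det| = t.card := by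
    have h2 : (realMat A).det = ((A.det : ℤ) : ℝ) := ((Int.castRingHom ℝ).map_det A).symm
    rw [← hdet, hA, det_mul, abs_mul, h2, mul_comm]
  have hW0 : W.det ≠ 0 := fun h => hM (by rw [hA, det_mul, h, zero_mul])
  have hA0 : A.det ≠ 0 := fun h => hM (by
    rw [hA, det_mul, show (realMat A).det = ((A.det : ℤ) : ℝ) from
      ((Int.castRingHom ℝ).map_det A).symm, h, Int.cast_zero, mul_zero])
  choose P₁ hP₁ using fun i j : Fin n => hLL _ (hWL (Pi.single i 1)) _ (hWL (Pi.single j 1))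
  set P : Matrix (Fin n) (Fin n) ℤ := Matrix.of P₁
  have hWP : Wᵀ * W = realMat P := Matrix.ext fun i j => by
    have h := hP₁ i j
    rw [ofInt_single, ofInt_single, Matrix.mulVec_single_one, Matrix.mulVec_single_one] at h
    exact h
  have hquad := norm_of_gram hWP
  have hPdet : (P.det : ℝ) = W.det ^ 2 := by
    rw [show ((P.det : ℤ) : ℝ) = (realMat P).det from (Int.castRingHom ℝ).map_det P, ← hWP,
      det_mul, det_transpose, sq]
  have hP1 : (1 : ℝ) ≤ W.det ^ 2 := by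
    have : (0 : ℝ) < (P.det : ℝ) := by rw [hPdet]; positivity
    rw [← hPdet]
    exact_mod_cast (show (1 : ℤ) ≤ P.det from Int.cast_pos.1 this)
  -- the classes
  have hinjA : Function.Injective A.mulVecLin := fun a b h => sub_eq_zero.1
    (Matrix.eq_zero_of_mulVec_eq_zero hA0 (by
      rw [mulVec_sub, ← Matrix.mulVecLin_apply, h, Matrix.mulVecLin_apply, sub_self]))
  set R := LinearMap.range A.mulVecLin
  have hcard : Nat.card ((Fin n → ℤ) ⧸ R) = A.det.natAbs := by
    rw [← Submodule.natAbs_det_equiv R (LinearEquiv.ofInjective A.mulVecLin hinjA),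
      ← LinearMap.det_toLin' A]
    rfl
  have : Finite ((Fin n → ℤ) ⧸ R) :=
    Nat.finite_of_card_ne_zero (by rw [hcard]; exact Int.natAbs_ne_zero.2 hA0)
  choose z hz using fun p : t => hLW _ (hpL p p.2)
  let Φ : t → (Fin n → ℤ) ⧸ R := fun p => Submodule.Quotient.mk (z p)
  have hWA : ∀ w, W *ᵥ ofInt (A *ᵥ w) = M *ᵥ ofInt w := fun w => by
    rw [← realMat_mulVec_ofInt, mulVec_mulVec, ← hA]
  have hΦ : Function.Injective Φ := fun p q h => by
    obtain ⟨w, hw⟩ := (Submodule.Quotient.eq R).1 h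
    refine Subtype.ext (hinj p p.2 q q.2 (-w) ?_)
    have h1 := congrArg (fun u => W *ᵥ ofInt u) hw
    simp only [Matrix.mulVecLin_apply, hWA, hsub, mulVec_sub, ← hz] at h1
    rw [show ofInt (-w) = -ofInt w from funext fun i => by simp [ofInt], mulVec_neg, h1]
    abel
  have hle : (t.card : ℝ) ≤ |(A.det : ℝ)| := by
    have := Nat.card_le_card_of_injective Φ hΦ
    rw [Nat.card_eq_finsetCard, hcard] at this
    rw [← Int.cast_abs, ← Int.natCast_natAbs, Int.cast_natCast]
    exact_mod_cast this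
  have hW1 : |W.det| = 1 := by
    refine le_antisymm (le_of_mul_le_mul_left ?_ (abs_pos.2 (Int.cast_ne_zero.2 hA0))) ?_
    · rw [hdetA, mul_one]; exact hle
    · rw [← sq_abs] at hP1; exact (one_le_sq_iff₀ (abs_nonneg _)).1 hP1
  have hP : IsEvenUnimodular P := by
    refine ⟨Matrix.ext fun i j => ?_, fun i => ?_, fun v hv => ?_, ?_⟩
    · refine (Int.cast_inj (α := ℝ)).1 ?_
      have h := congrFun (congrFun (congrArg transpose hWP) i) j
      rw [transpose_mul, transpose_transpose, hWP] at h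
      exact h.symm
    · obtain ⟨k, hk⟩ := hLe _ (hWL (Pi.single i 1))
      have h := hP₁ i i
      rw [hk] at h
      exact ⟨k, (Int.cast_inj (α := ℝ)).1 (by simp only [P, of_apply, ← h]; push_cast; ring)⟩
    · have h0 : W *ᵥ ofInt v ≠ 0 := fun e => hv (by
        have := Matrix.eq_zero_of_mulVec_eq_zero hW0 e
        funext i
        simpa [ofInt] using congrFun this i)
      have h2 : 0 < (W *ᵥ ofInt v) ⬝ᵥ (W *ᵥ ofInt v) := lt_of_le_of_ne
        (Finset.sum_nonneg fun i _ => mul_self_nonneg _)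
        (Ne.symm fun e => h0 (dotProduct_self_eq_zero.1 e))
      rw [hquad] at h2
      exact_mod_cast h2
    · exact_mod_cast show (P.det : ℝ) = 1 by rw [hPdet, ← sq_abs, hW1, one_pow]
  have hAt : Nat.card ((Fin n → ℤ) ⧸ R) ≤ Nat.card t := by
    rw [Nat.card_eq_finsetCard, hcard]
    rw [hW1, mul_one, ← Int.cast_abs, ← Int.natCast_natAbs, Int.cast_natCast] at hdetA
    exact le_of_eq (by exact_mod_cast hdetA)
  refine ⟨P, W, hP, hWP, fun p hp v => ?_, fun u => ?_⟩
  · refine ⟨z ⟨p, hp⟩ + A *ᵥ v, ?_⟩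
    rw [hadd, mulVec_add, hWA, ← hz]
    abel
  · obtain ⟨p, hp⟩ := (hΦ.bijective_of_nat_card_le hAt).2 (Submodule.Quotient.mk u)
    obtain ⟨w, hw⟩ := (Submodule.Quotient.eq R).1 hp.symm
    refine ⟨p, p.2, w, ?_⟩
    have h1 := congrArg (fun u => W *ᵥ ofInt u) hw
    simp only [Matrix.mulVecLin_apply, hWA, hsub, mulVec_sub, ← hz] at h1
    rw [h1]
    abel

end FA.PackingLP

end
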