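import Fermat.Agent.PackingLP.Density
import Mathlib.Analysis.SpecialFunctions.Gaussian.FourierTransform
import Mathlib.Analysis.SpecialFunctions.Gamma.Basic
import Mathlib.Analysis.Complex.ExponentialBounds
import Mathlib.Analysis.SpecialFunctions.Trigonometric.DerivHyp
import Mathlib.Analysis.SpecificLimits.Normed

/-!
# A test function made of two Gaussians

With `a = n / (2 π)` and `b = (n + 1) / (2 π)`, the function
`exp (-π b |x|²) - exp (-1 / 2) exp (-π a |x|²)` gives the bound `3 (n + 1) (e / 4) ^ (n / 2)`.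
-/

set_option autoImplicit false

noncomputable section

open MeasureTheory Complex Set GaussianFourier
open scoped Real

namespace FA.PackingLP

variable {n : ℕ}

/-- The Gaussian `exp (-π a |x|²)`. -/
def gaussFun (a : ℝ) (x : Fin n → ℝ) : ℝ := Real.exp (-(π * a * ∑ i, x i ^ 2))

theorem continuous_gaussFun (a : ℝ) : Continuous (gaussFun (n := n) a) := by
  unfold gaussFun; fun_prop

theorem hasDecay_gaussFun {a : ℝ} (ha : 0 < a) : HasDecay (gaussFun (n := n) a) := by
  refine ⟨n.factorial * Real.exp (π * a) / (π * a) ^ n, fun x => ?_⟩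
  have hs : 0 ≤ ∑ i, x i ^ 2 := Finset.sum_nonneg fun i _ => sq_nonneg _
  have h := Real.pow_div_factorial_le_exp (π * a * (1 + ∑ i, x i ^ 2)) (by positivity) n
  rw [div_le_iff₀ (by positivity), mul_pow, mul_add, mul_one, Real.exp_add] at h
  rw [gaussFun, Real.norm_of_nonneg (Real.exp_pos _).le, radialWeight, ← div_eq_mul_inv,
    div_div, le_div_iff₀ (by positivity), Real.exp_neg, inv_mul_le_iff₀ (Real.exp_pos _)]
  linarith

theorem HasDecay.const_mul {f : (Fin n → ℝ) → ℝ} (hf : HasDecay f) (c : ℝ) :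
    HasDecay fun x => c * f x := by
  obtain ⟨C, hC⟩ := hf
  refine ⟨|c| * C, fun x => ?_⟩
  rw [norm_mul, Real.norm_eq_abs, mul_assoc]
  exact mul_le_mul_of_nonneg_left (hC x) (abs_nonneg c)

theorem HasDecay.sub {f g : (Fin n → ℝ) → ℝ} (hf : HasDecay f) (hg : HasDecay g) :
    HasDecay fun x => f x - g x := by
  obtain ⟨C, hC⟩ := hf
  obtain ⟨D, hD⟩ := hg
  refine ⟨C + D, fun x => (norm_sub_le _ _).trans ?_⟩
  rw [add_mul]
  exact add_le_add (hC x) (hD x)

theorem fourierT_gaussFun {a : ℝ} (ha : 0 < a) (ξ : Fin n → ℝ) :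
    fourierT (gaussFun a) ξ = (((Real.sqrt a)⁻¹ ^ n * gaussFun a⁻¹ ξ : ℝ) : ℂ) := by
  have hb : 0 < ((π * a : ℝ) : ℂ).re := by rw [ofReal_re]; positivity
  have h := integral_cexp_neg_mul_sum_add hb fun i => -(2 * π * I * (ξ i : ℂ))
  have hpt : ∀ x : Fin n → ℝ,
      cexp (-(2 * π * I * ∑ i, (ξ i : ℂ) * (x i : ℂ))) * (gaussFun a x : ℂ) =
      cexp (-((π * a : ℝ) : ℂ) * ∑ i, (x i : ℂ) ^ 2 + ∑ i, -(2 * π * I * (ξ i : ℂ)) * x i) :=
    fun x => by
    rw [gaussFun, ofReal_exp, ← Complex.exp_add]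
    congr 1
    push_cast
    simp only [Finset.mul_sum, neg_mul, Finset.sum_neg_distrib, mul_assoc]
    ring
  rw [fourierT, integral_congr_ae (Filter.Eventually.of_forall hpt), h,
    ofReal_mul ((Real.sqrt a)⁻¹ ^ n)]
  have hπ : (π : ℂ) ≠ 0 := ofReal_ne_zero.2 Real.pi_ne_zero
  have haC : (a : ℂ) ≠ 0 := ofReal_ne_zero.2 ha.ne'
  congr 1
  · rw [show (π : ℂ) / ((π * a : ℝ) : ℂ) = ((a⁻¹ : ℝ) : ℂ) by push_cast; field_simp,
      Fintype.card_fin, show ((n : ℂ) / 2) = (((n : ℝ) / 2 : ℝ) : ℂ) by push_cast; rfl,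
      ← ofReal_cpow (by positivity), ← Real.sqrt_inv, Real.sqrt_eq_rpow, ← Real.rpow_natCast,
      ← Real.rpow_mul (by positivity)]
    congr 2
    ring
  · rw [gaussFun, ofReal_exp]
    congr 1
    push_cast
    simp only [neg_sq, mul_pow, I_sq, ← Finset.mul_sum]
    field_simp
    ring

theorem fourierT_integrable {a : ℝ} (ha : 0 < a) (ξ : Fin n → ℝ) :
    Integrable fun x : Fin n → ℝ =>
      cexp (-(2 * π * I * ∑ i, (ξ i : ℂ) * (x i : ℂ))) * (gaussFun a x : ℂ) := by
  have hb : 0 < ((π * a : ℝ) : ℂ).re := by rw [ofReal_re]; positivity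
  refine (integrable_cexp_neg_mul_sum_add hb fun i => -(2 * π * I * (ξ i : ℂ))).congr
    (Filter.Eventually.of_forall fun x => ?_)
  simp only [gaussFun, ofReal_exp, ← Complex.exp_add]
  congr 1
  push_cast
  simp only [Finset.mul_sum, neg_mul, Finset.sum_neg_distrib, mul_assoc]
  ring

/-- The smaller exponent. -/
def expA (n : ℕ) : ℝ := n / (2 * π)

/-- The larger exponent. -/
def expB (n : ℕ) : ℝ := (n + 1) / (2 * π)

/-- The test function. -/
def testFun (n : ℕ) (x : Fin n → ℝ) : ℝ :=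
  gaussFun (expB n) x - Real.exp (-(1 / 2)) * gaussFun (expA n) x

/-- Its transform. -/
def testFourier (n : ℕ) (ξ : Fin n → ℝ) : ℝ :=
  (Real.sqrt (expB n))⁻¹ ^ n * gaussFun (expB n)⁻¹ ξ -
    Real.exp (-(1 / 2)) * ((Real.sqrt (expA n))⁻¹ ^ n * gaussFun (expA n)⁻¹ ξ)

theorem expA_pos (hn : 0 < n) : 0 < expA n := by unfold expA; positivity

theorem expB_pos : 0 < expB n := by unfold expB; positivity

theorem expA_lt_expB : expA n < expB n := by
  unfold expA expB
  gcongr
  linarith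

/-- The key inequality: `√(a / b) ^ n ≥ (1 + 1 / (4 (n + 1))) e ^ (-1 / 2)`. -/
theorem ratio_pow_ge (hn : 0 < n) :
    Real.exp (-(1 / 2)) * (1 + 1 / (4 * ((n : ℝ) + 1))) ≤
      (Real.sqrt (expA n) / Real.sqrt (expB n)) ^ n := by
  have hn' : (0 : ℝ) < n := by exact_mod_cast hn
  set t : ℝ := ((n : ℝ) + 1) / n with ht
  have ht0 : 0 < t := by positivity
  have hlog : Real.log t ≤ (t - t⁻¹) / 2 := by
    have h0 : 0 ≤ Real.log t := Real.log_nonneg (by rw [ht, le_div_iff₀ hn']; linarith)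
    exact (Real.self_le_sinh_iff.2 h0).trans_eq (Real.sinh_log ht0)
  have hpow : (Real.sqrt (expA n) / Real.sqrt (expB n)) ^ n = Real.exp (-(n / 2 * Real.log t)) := by
    rw [← Real.sqrt_div (expA_pos hn).le, show expA n / expB n = t⁻¹ by
      rw [expA, expB, ht, inv_div, div_div_div_cancel_right₀ (by positivity)],
      Real.sqrt_inv, ← Real.rpow_natCast, Real.rpow_def_of_pos (by positivity), Real.log_inv,
      Real.log_sqrt ht0.le]
    congr 1
    ring
  rw [hpow]
  refine (mul_le_mul_of_nonneg_left (?_ : _ ≤ Real.exp (1 / 2 - n / 2 * Real.log t))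
    (Real.exp_pos _).le).trans_eq (by rw [← Real.exp_add]; ring_nf)
  refine le_trans ?_ (Real.add_one_le_exp _)
  have h1 : (n : ℝ) * ((t - t⁻¹) / 2) = 1 - 1 / (2 * ((n : ℝ) + 1)) := by
    rw [ht]; field_simp; ring
  have h2 := mul_le_mul_of_nonneg_left hlog hn'.le
  have h3 : 1 / (2 * ((n : ℝ) + 1)) = 2 * (1 / (4 * ((n : ℝ) + 1))) := by
    field_simp; ring
  linarith

theorem isTestFunction_testFun (hn : 0 < n) : IsTestFunction (testFun n) (testFourier n) := by
  have hd : expB n - expA n = 1 / (2 * π) := by unfold expA expB; ring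
  refine ⟨(continuous_gaussFun _).sub (continuous_const.mul (continuous_gaussFun _)),
    (hasDecay_gaussFun expB_pos).sub ((hasDecay_gaussFun (expA_pos hn)).const_mul _),
    fun ξ => ?_, HasDecay.sub ((hasDecay_gaussFun (inv_pos.2 expB_pos)).const_mul _)
      (((hasDecay_gaussFun (inv_pos.2 (expA_pos hn))).const_mul _).const_mul _),
    fun ξ => ?_, fun x hx => ?_⟩
  · simp only [fourierT, testFun, ofReal_sub, ofReal_mul, mul_sub,
      mul_left_comm _ (Real.exp (-(1 / 2)) : ℂ)]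
    rw [integral_sub (fourierT_integrable expB_pos ξ)
      ((fourierT_integrable (expA_pos hn) ξ).const_mul _), integral_const_mul,
      ← fourierT, ← fourierT, fourierT_gaussFun expB_pos, fourierT_gaussFun (expA_pos hn)]
    simp [testFourier]
  · have hA := Real.sqrt_pos.2 (expA_pos hn)
    rw [testFourier, sub_nonneg, ← mul_assoc]
    refine mul_le_mul ?_ (Real.exp_le_exp.2 ?_) (Real.exp_pos _).le (by positivity)
    · refine le_trans (mul_le_mul_of_nonneg_right
        ((le_mul_of_one_le_right (Real.exp_pos _).le (by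
          have : (0 : ℝ) ≤ 1 / (4 * ((n : ℝ) + 1)) := by positivity
          linarith)).trans (ratio_pow_ge hn)) (by positivity)) (le_of_eq ?_)
      rw [← mul_pow, div_eq_mul_inv, mul_assoc, mul_comm _ (Real.sqrt (expA n))⁻¹, ← mul_assoc,
        mul_inv_cancel₀ hA.ne', one_mul]
    · refine neg_le_neg (mul_le_mul_of_nonneg_right ?_ (Finset.sum_nonneg fun i _ => sq_nonneg _))
      exact mul_le_mul_of_nonneg_left (inv_anti₀ (expA_pos hn) expA_lt_expB.le) Real.pi_pos.le
  · rw [testFun, sub_nonpos, gaussFun, gaussFun, ← Real.exp_add]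
    refine Real.exp_le_exp.2 ?_
    have h : π * (expB n - expA n) = 1 / 2 := by rw [hd]; field_simp
    have h' := mul_le_mul_of_nonneg_left hx (mul_nonneg Real.pi_pos.le
      (sub_nonneg.2 (expA_lt_expB (n := n)).le))
    rw [mul_one, h] at h'
    have h'' : π * expB n * ∑ i, x i ^ 2 - π * expA n * ∑ i, x i ^ 2 =
        1 / 2 * ∑ i, x i ^ 2 := by rw [← h]; ring
    linarith

/-- `x ^ x e ^ (-x) ≤ Γ (x + 1)`. -/
theorem rpow_self_le_gamma {x : ℝ} (hx : 0 < x) :
    x ^ x * Real.exp (-x) ≤ Real.Gamma (x + 1) := by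
  have hint : IntegrableOn (fun t : ℝ => Real.exp (-t) * t ^ x) (Ioi 0) := by
    simpa using Real.GammaIntegral_convergent (show 0 < x + 1 by linarith)
  rw [Real.Gamma_eq_integral (by linarith), add_sub_cancel_right]
  calc x ^ x * Real.exp (-x) = ∫ t in Ioi x, Real.exp (-t) * x ^ x := by
        rw [integral_mul_const, integral_exp_neg_Ioi, mul_comm]
    _ ≤ ∫ t in Ioi x, Real.exp (-t) * t ^ x := by
        refine setIntegral_mono_on ((integrableOn_exp_neg_Ioi x).mul_const _)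
          (hint.mono_set (Ioi_subset_Ioi hx.le)) measurableSet_Ioi fun t ht => ?_
        exact mul_le_mul_of_nonneg_left (Real.rpow_le_rpow hx.le (le_of_lt ht) hx.le)
          (Real.exp_pos _).le
    _ ≤ _ := setIntegral_mono_set hint
        ((ae_restrict_iff' measurableSet_Ioi).2 (Filter.Eventually.of_forall fun t ht =>
          mul_nonneg (Real.exp_pos _).le (Real.rpow_nonneg (le_of_lt ht) _)))
        (Ioi_subset_Ioi hx.le).eventuallyLE

/-- The number `√(e / 4)`. -/
def lpRate : ℝ := Real.sqrt (Real.exp 1 / 4)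

theorem lpRate_lt_one : lpRate < 1 := by
  rw [lpRate, Real.sqrt_lt' one_pos]
  linarith [Real.exp_one_lt_d9]

theorem ballVolume_half_le (hn : 0 < n) :
    ballVolume n (1 / 2) * Real.sqrt (expA n) ^ n ≤ lpRate ^ n := by
  have hn' : (0 : ℝ) < n := by exact_mod_cast hn
  have : Nonempty (Fin n) := ⟨⟨0, hn⟩⟩
  have hG := rpow_self_le_gamma (x := (n : ℝ) / 2) (by positivity)
  have hGpos : 0 < Real.Gamma ((n : ℝ) / 2 + 1) := Real.Gamma_pos_of_pos (by positivity)
  have hxx : ((n : ℝ) / 2) ^ ((n : ℝ) / 2) * Real.exp (-((n : ℝ) / 2)) =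
      Real.sqrt ((n : ℝ) / 2 / Real.exp 1) ^ n := by
    rw [Real.exp_neg, ← Real.exp_one_rpow ((n : ℝ) / 2), ← div_eq_mul_inv,
      ← Real.div_rpow (by positivity) (Real.exp_pos _).le, Real.sqrt_eq_rpow, ← Real.rpow_natCast,
      ← Real.rpow_mul (by positivity)]
    congr 1
    ring
  rw [ballVolume, measureReal_def, EuclideanSpace.volume_ball, Fintype.card_fin, ENNReal.toReal_mul,
    ENNReal.toReal_pow, ENNReal.toReal_ofReal (by norm_num), ENNReal.toReal_ofReal (by positivity),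
    ← mul_div_assoc, div_mul_eq_mul_div, div_le_iff₀ hGpos]
  refine le_trans (le_of_eq ?_) (mul_le_mul_of_nonneg_left (hxx ▸ hG) (by
    unfold lpRate; positivity))
  rw [← mul_pow, ← mul_pow, ← mul_pow, lpRate, ← Real.sqrt_mul (by positivity), mul_assoc,
    ← Real.sqrt_mul Real.pi_pos.le,
    show (1 : ℝ) / 2 = Real.sqrt (1 / 4) by
      rw [show (1 : ℝ) / 4 = (1 / 2) ^ 2 by norm_num, Real.sqrt_sq (by norm_num)],
    ← Real.sqrt_mul (by norm_num), expA]
  congr 2
  field_simp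

theorem testFourier_zero_pos (hn : 0 < n) : 0 < testFourier n 0 ∧
    ballVolume n (1 / 2) * testFun n 0 ≤ 3 * ((n : ℝ) + 1) * lpRate ^ n * testFourier n 0 := by
  have hA := Real.sqrt_pos.2 (expA_pos hn)
  set y := Real.exp (-(1 / 2)) with hy
  set d := 1 / (4 * ((n : ℝ) + 1)) with hd
  set u := (Real.sqrt (expA n) / Real.sqrt (expB n)) ^ n - y with hu
  have hy0 : 0 < y := Real.exp_pos _
  have hd0 : 0 < d := by positivity
  have hu0 : y * d ≤ u := by linarith [ratio_pow_ge hn, mul_add y 1 d]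
  have hF : testFourier n 0 = u * (Real.sqrt (expA n))⁻¹ ^ n := by
    have hB := Real.sqrt_pos.2 (expB_pos (n := n))
    rw [hu, sub_mul, ← mul_pow,
      show Real.sqrt (expA n) / Real.sqrt (expB n) * (Real.sqrt (expA n))⁻¹ =
        (Real.sqrt (expB n))⁻¹ by field_simp]
    simp [testFourier, gaussFun, hy]
  have hf : testFun n 0 = 1 - y := by simp [testFun, gaussFun, hy]
  have hy' : 4 / 7 ≤ y := by
    rw [hy, Real.exp_neg, div_le_iff₀ (by norm_num : (0 : ℝ) < 7), ← div_eq_inv_mul,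
      le_div_iff₀ (Real.exp_pos _)]
    have h : Real.exp (1 / 2) ≤ 7 / 4 := by
      refine le_of_pow_le_pow_left₀ two_ne_zero (by norm_num) ?_
      rw [← Real.exp_nat_mul]
      norm_num
      linarith [Real.exp_one_lt_d9]
    linarith
  have hupos : 0 < u := lt_of_lt_of_le (mul_pos hy0 hd0) hu0
  refine ⟨hF ▸ mul_pos hupos (pow_pos (inv_pos.2 hA) n), ?_⟩
  rw [hF, hf, ← mul_assoc, inv_pow, ← div_eq_mul_inv, le_div_iff₀ (pow_pos hA n)]
  have h1 : 1 - y ≤ 3 * ((n : ℝ) + 1) * u := by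
    have h2 := mul_le_mul_of_nonneg_left hu0 (show (0 : ℝ) ≤ 3 * ((n : ℝ) + 1) by positivity)
    have h3 : 3 * ((n : ℝ) + 1) * (y * d) = 3 / 4 * y := by rw [hd]; field_simp
    linarith
  have hy1 : y ≤ 1 := Real.exp_le_one_iff.2 (by norm_num)
  have h4 := mul_le_mul (ballVolume_half_le hn) h1 (by linarith) (by unfold lpRate; positivity)
  linarith

end FA.PackingLP

end
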