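import Fermat.Agent.PackingLP.EvenLattice
import Fermat.Agent.PackingLP.Density
import Fermat.Agent.Perfect.Packing
import Mathlib.Analysis.InnerProductSpace.PiL2

/-!
# The packings which attain the bound

If the test function vanishes outside the unit ball only where `c |x|²` is an even integer, a
periodic packing attaining the bound is a translate of a similar copy of an even unimodular lattice
of minimal norm at least `c`.
-/

set_option autoImplicit false

noncomputable section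

open MeasureTheory Matrix Set

namespace FA.PackingLP

open FA.HeckeFE FA.UnimodularTheta

variable {n : ℕ}

/-- The centres of a periodic packing. -/
def periodicCentres (B : Matrix (Fin n) (Fin n) ℝ) (t : Finset (EuclideanSpace ℝ (Fin n))) :
    Set (EuclideanSpace ℝ (Fin n)) :=
  {x | ∃ p ∈ t, ∃ v : Fin n → ℤ, x = p + WithLp.toLp 2 (B *ᵥ ofInt v)}

/-- A translate of a scaled lattice. -/
def translatedLattice (W : Matrix (Fin n) (Fin n) ℝ) (k : ℝ) (p₀ : EuclideanSpace ℝ (Fin n)) :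
    Set (EuclideanSpace ℝ (Fin n)) :=
  {x | ∃ z : Fin n → ℤ, x = p₀ + k • WithLp.toLp 2 (W *ᵥ ofInt z)}

/-- **The packings which attain the bound.** -/
theorem optimal_periodic {f F : (Fin n → ℝ) → ℝ} (h : IsTestFunction f F) {c : ℝ} (hc : 0 < c)
    (hzero : ∀ x : Fin n → ℝ, 1 ≤ ∑ i, x i ^ 2 → f x = 0 → ∃ k : ℤ, c * ∑ i, x i ^ 2 = 2 * k)
    (hval : F 0 * Real.sqrt c ^ n = f 0) (hf0 : f 0 ≠ 0) {r : ℝ} (hr : 0 < r)
    {B : Matrix (Fin n) (Fin n) ℝ} (hB : B.det ≠ 0) (t : Finset (EuclideanSpace ℝ (Fin n)))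
    (hpack : Pairwise fun a b : t × (Fin n → ℤ) =>
      Disjoint (Metric.ball ((a.1 : EuclideanSpace ℝ (Fin n)) + WithLp.toLp 2 (B *ᵥ ofInt a.2)) r)
        (Metric.ball ((b.1 : EuclideanSpace ℝ (Fin n)) + WithLp.toLp 2 (B *ᵥ ofInt b.2)) r))
    (heq : (t.card : ℝ) * ballVolume n r * F 0 = |B.det| * ballVolume n (1 / 2) * f 0) :
    ∃ (P : Matrix (Fin n) (Fin n) ℤ) (W : Matrix (Fin n) (Fin n) ℝ), ∃ p₀ ∈ t,
      IsEvenUnimodular P ∧ Wᵀ * W = realMat P ∧ (∀ z, z ≠ 0 → c ≤ (normQ P z : ℝ)) ∧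
      periodicCentres B t = translatedLattice W (2 * r / Real.sqrt c) p₀ := by
  set s := (2 * r)⁻¹ with hs
  set l := Real.sqrt c * s with hldef
  have hs0 : 0 < s := by positivity
  have hl : 0 < l := by positivity
  have hV : 0 < ballVolume n (1 / 2) :=
    ENNReal.toReal_pos (Metric.measure_ball_pos volume 0 (by norm_num)).ne'
      measure_ball_lt_top.ne
  -- the bound is attained after scaling by `s`
  let φ : EuclideanSpace ℝ (Fin n) → (Fin n → ℝ) := fun p i => s * p i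
  have hφ : Function.Injective φ := fun p q e => by
    ext i
    exact mul_left_cancel₀ hs0.ne' (congrFun e i)
  have hdet : (s • B).det = s ^ n * B.det := by simp
  have hF : (t.card : ℝ) * F 0 = s ^ n * |B.det| * f 0 := by
    rw [ballVolume_eq hr] at heq
    refine mul_left_cancel₀ hV.ne' (mul_left_cancel₀ (pow_ne_zero n (mul_pos two_pos hr).ne') ?_)
    calc (2 * r) ^ n * (ballVolume n (1 / 2) * ((t.card : ℝ) * F 0))
        = (t.card : ℝ) * ((2 * r) ^ n * ballVolume n (1 / 2)) * F 0 := by ring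
      _ = |B.det| * ballVolume n (1 / 2) * f 0 := heq
      _ = ((2 * r) ^ n * s ^ n) * (ballVolume n (1 / 2) * (|B.det| * f 0)) := by
          rw [← mul_pow, hs, mul_inv_cancel₀ (by positivity), one_pow]; ring
      _ = _ := by ring
  obtain ⟨p₀, hp₀⟩ : t.Nonempty := by
    rw [Finset.nonempty_iff_ne_empty]
    rintro rfl
    rw [Finset.card_empty, Nat.cast_zero, zero_mul, eq_comm] at hF
    simp [hs0.ne', hB, hf0] at hF
  have hsep : ∀ p ∈ t, ∀ q ∈ t, ∀ v, (p = q ∧ v = 0) ∨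
      1 ≤ ∑ i, (φ p - φ q + (s • B) *ᵥ ofInt v) i ^ 2 := fun p hp q hq v => by
    refine (scaled_separated hr t hpack hp hq v).imp_right fun e => e.trans_eq
      (Finset.sum_congr rfl fun i _ => ?_)
    simp only [φ, hs, Pi.add_apply, Pi.sub_apply, Matrix.smul_mulVec, Pi.smul_apply, smul_eq_mul]
  have hvan : ∀ p ∈ t, ∀ q ∈ t, ∀ v, (p = q → v ≠ 0) →
      f (φ p - φ q + (s • B) *ᵥ ofInt v) = 0 := fun p hp q hq v hne =>
    periodic_equality (by rw [hdet]; exact mul_ne_zero (pow_ne_zero _ hs0.ne') hB) h (t.image φ)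
      (fun a ha b hb w => by
        obtain ⟨a, ha', rfl⟩ := Finset.mem_image.1 ha
        obtain ⟨b, hb', rfl⟩ := Finset.mem_image.1 hb
        exact (hsep a ha' b hb' w).imp_left fun e => ⟨congrArg φ e.1, e.2⟩)
      (by rw [Finset.card_image_of_injective _ hφ, hdet, abs_mul, abs_of_pos (pow_pos hs0 n), hF])
      (Finset.mem_image_of_mem φ hp) (Finset.mem_image_of_mem φ hq) fun e => hne (hφ e)
  -- scaling by `l` gives even squared distances
  let ψ : EuclideanSpace ℝ (Fin n) → (Fin n → ℝ) := fun p i => l * p i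
  have hψ : Function.Injective ψ := fun p q e => by
    ext i
    exact mul_left_cancel₀ hl.ne' (congrFun e i)
  have hscale : ∀ p q (v : Fin n → ℤ), ψ p - ψ q + (l • B) *ᵥ ofInt v =
      Real.sqrt c • (φ p - φ q + (s • B) *ᵥ ofInt v) := fun p q v => by
    funext i
    simp [ψ, φ, hldef, Matrix.smul_mulVec]
    ring
  have hsq : ∀ x : Fin n → ℝ,
      (Real.sqrt c • x) ⬝ᵥ (Real.sqrt c • x) = c * ∑ i, x i ^ 2 := fun x => by
    rw [smul_dotProduct, dotProduct_smul, smul_eq_mul, smul_eq_mul, ← mul_assoc,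
      Real.mul_self_sqrt hc.le]
    simp [dotProduct, sq]
  have hcases : ∀ p ∈ t, ∀ q ∈ t, ∀ v, (p = q ∧ v = 0) ∨
      c ≤ (ψ p - ψ q + (l • B) *ᵥ ofInt v) ⬝ᵥ (ψ p - ψ q + (l • B) *ᵥ ofInt v) :=
    fun p hp q hq v => (hsep p hp q hq v).imp_right fun e => by
      rw [hscale, hsq]; exact le_mul_of_one_le_right hc.le e
  have hldet : (l • B).det ≠ 0 := by
    rw [det_smul, Fintype.card_fin]; exact mul_ne_zero (pow_ne_zero _ hl.ne') hB
  obtain ⟨P, W, hP, hW, hto, hfrom⟩ := lattice_of_even (t := t.image ψ) hldet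
    (fun a ha b hb v => by
      obtain ⟨p, hp, rfl⟩ := Finset.mem_image.1 ha
      obtain ⟨q, hq, rfl⟩ := Finset.mem_image.1 hb
      rw [hscale, hsq]
      by_cases hne : p = q ∧ v = 0
      · obtain ⟨rfl, rfl⟩ := hne
        exact ⟨0, by simp [zero_mulVec_ofInt]⟩
      · exact hzero _ ((hsep p hp q hq v).resolve_left hne)
          (hvan p hp q hq v fun e1 e2 => hne ⟨e1, e2⟩))
    (fun a ha b hb v e => by
      obtain ⟨p, hp, rfl⟩ := Finset.mem_image.1 ha
      obtain ⟨q, hq, rfl⟩ := Finset.mem_image.1 hb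
      rcases hcases p hp q hq v with h' | h'
      · rw [h'.1]
      · rw [e, dotProduct_zero] at h'; linarith)
    (by
      rw [Finset.card_image_of_injective _ hψ, det_smul, Fintype.card_fin, abs_mul,
        abs_of_pos (pow_pos hl n), hldef, mul_pow]
      refine mul_right_cancel₀ (b := f 0) hf0 ?_
      calc Real.sqrt c ^ n * s ^ n * |B.det| * f 0
          = Real.sqrt c ^ n * (s ^ n * |B.det| * f 0) := by ring
        _ = Real.sqrt c ^ n * ((t.card : ℝ) * F 0) := by rw [hF]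
        _ = (t.card : ℝ) * f 0 := by rw [← hval]; ring)
    (Finset.mem_image_of_mem ψ hp₀)
  refine ⟨P, W, p₀, hp₀, hP, hW, fun z hz => ?_, ?_⟩
  · obtain ⟨a, ha, v, hv⟩ := hfrom z
    obtain ⟨p, hp, rfl⟩ := Finset.mem_image.1 ha
    have hWz : W *ᵥ ofInt z = ψ p - ψ p₀ + (l • B) *ᵥ ofInt v := by
      rw [eq_sub_of_add_eq' hv.symm]; abel
    have hquad := norm_of_gram hW z
    rcases hcases p hp p₀ hp₀ v with h' | h'
    · obtain ⟨rfl, rfl⟩ := h'
      have : (normQ P z : ℝ) = 0 := by rw [← hquad, hWz]; simp [zero_mulVec_ofInt]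
      exact absurd this (Int.cast_ne_zero.2 (hP.pos z hz).ne')
    · rwa [← hWz, hquad] at h'
  · have key : ∀ p (v z : Fin n → ℤ),
        ψ p + (l • B) *ᵥ ofInt v = ψ p₀ + W *ᵥ ofInt z ↔
          p + WithLp.toLp 2 (B *ᵥ ofInt v) =
            p₀ + (2 * r / Real.sqrt c) • WithLp.toLp 2 (W *ᵥ ofInt z) := fun p v z => by
      have hk : 2 * r / Real.sqrt c = l⁻¹ := by
        rw [hldef, hs]; field_simp
      constructor
      · intro e
        ext i
        have := congrFun e i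
        simp [ψ, Matrix.smul_mulVec, hk] at this ⊢
        field_simp
        linarith
      · intro e
        funext i
        have := congrArg (fun x : EuclideanSpace ℝ (Fin n) => x i) e
        simp [ψ, Matrix.smul_mulVec, hk] at this ⊢
        field_simp at this
        linarith
    ext x
    constructor
    · rintro ⟨p, hp, v, rfl⟩
      obtain ⟨z, hz⟩ := hto _ (Finset.mem_image_of_mem ψ hp) v
      exact ⟨z, (key p v z).1 hz⟩
    · rintro ⟨z, rfl⟩
      obtain ⟨a, ha, v, hv⟩ := hfrom z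
      obtain ⟨p, hp, rfl⟩ := Finset.mem_image.1 ha
      exact ⟨p, hp, v, ((key p v z).1 hv).symm⟩

/-- Two bases of lattices of the same Gram matrix differ by an isometry. -/
theorem exists_isometry_of_gram {W W' : Matrix (Fin n) (Fin n) ℝ} (hW : W.det ≠ 0)
    (h : W'ᵀ * W' = Wᵀ * W) (k : ℝ) (p q : EuclideanSpace ℝ (Fin n)) :
    ∃ σ : EuclideanSpace ℝ (Fin n) ≃ᵢ EuclideanSpace ℝ (Fin n),
      σ '' translatedLattice W k p = translatedLattice W' k q := by
  have hu : IsUnit W.det := isUnit_iff_ne_zero.2 hW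
  set O := W' * W⁻¹
  have hO : Oᵀ * O = 1 := by
    rw [transpose_mul, Matrix.mul_assoc, ← Matrix.mul_assoc W'ᵀ, h, Matrix.mul_assoc Wᵀ,
      mul_nonsing_inv _ hu, Matrix.mul_one, ← transpose_mul, mul_nonsing_inv _ hu, transpose_one]
  let L : EuclideanSpace ℝ (Fin n) →ₗᵢ[ℝ] EuclideanSpace ℝ (Fin n) :=
    ⟨Matrix.toLpLin 2 2 O, fun x => by
      refine (pow_left_inj₀ (norm_nonneg _) (norm_nonneg x) two_ne_zero).1 ?_
      rw [EuclideanSpace.real_norm_sq_eq, EuclideanSpace.real_norm_sq_eq,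
        Matrix.toLpLin_apply]
      have : (O *ᵥ x.ofLp) ⬝ᵥ (O *ᵥ x.ofLp) = x.ofLp ⬝ᵥ x.ofLp := by
        rw [dotProduct_mulVec, ← mulVec_transpose, mulVec_mulVec, hO, one_mulVec]
      simpa [dotProduct, sq] using this⟩
  let e := L.toLinearIsometryEquiv rfl
  refine ⟨((IsometryEquiv.subRight p).trans e.toIsometryEquiv).trans (IsometryEquiv.addLeft q), ?_⟩
  have he : ∀ z, q + e (p + k • WithLp.toLp 2 (W *ᵥ ofInt z) - p) =
      q + k • WithLp.toLp 2 (W' *ᵥ ofInt z) := fun z => by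
    rw [add_sub_cancel_left, map_smul, LinearIsometry.toLinearIsometryEquiv_apply]
    show q + k • (Matrix.toLpLin 2 2 O) (WithLp.toLp 2 (W *ᵥ ofInt z)) = _
    rw [Matrix.toLpLin_apply, mulVec_mulVec, Matrix.mul_assoc, nonsing_inv_mul _ hu,
      Matrix.mul_one]
  ext x
  constructor
  · rintro ⟨_, ⟨z, rfl⟩, rfl⟩
    exact ⟨z, he z⟩
  · rintro ⟨z, rfl⟩
    exact ⟨_, ⟨z, rfl⟩, he z⟩

/-- The translates do not depend on the basis. -/
theorem translatedLattice_basis (W : Matrix (Fin n) (Fin n) ℝ) (k : ℝ)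
    (p : EuclideanSpace ℝ (Fin n)) {U : Matrix (Fin n) (Fin n) ℤ} (hU : IsUnit U) :
    translatedLattice (W * realMat U) k p = translatedLattice W k p := by
  obtain ⟨u, rfl⟩ := hU
  ext x
  constructor
  · rintro ⟨z, rfl⟩
    exact ⟨u.1 *ᵥ z, by rw [← mulVec_mulVec, realMat_mulVec_ofInt]⟩
  · rintro ⟨z, rfl⟩
    exact ⟨(↑u⁻¹ : Matrix (Fin n) (Fin n) ℤ) *ᵥ z, by
      rw [← mulVec_mulVec, realMat_mulVec_ofInt, mulVec_mulVec, u.mul_inv, one_mulVec]⟩

theorem periodicCentres_zero (B : Matrix (Fin n) (Fin n) ℝ) :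
    periodicCentres B {0} = translatedLattice B 1 0 := by
  ext x
  simp [periodicCentres, translatedLattice]

theorem isPeriodicPacking_zero {B : Matrix (Fin n) (Fin n) ℝ} {r : ℝ}
    (hpack : Perfect.IsLatticePacking B r) :
    Pairwise fun a b : ({0} : Finset (EuclideanSpace ℝ (Fin n))) × (Fin n → ℤ) =>
      Disjoint (Metric.ball ((a.1 : EuclideanSpace ℝ (Fin n)) + WithLp.toLp 2 (B *ᵥ ofInt a.2)) r)
        (Metric.ball ((b.1 : EuclideanSpace ℝ (Fin n)) + WithLp.toLp 2 (B *ᵥ ofInt b.2)) r) := by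
  intro a b hab
  have ha : (a.1 : EuclideanSpace ℝ (Fin n)) = 0 := Finset.mem_singleton.1 a.1.2
  have hb : (b.1 : EuclideanSpace ℝ (Fin n)) = 0 := Finset.mem_singleton.1 b.1.2
  simp only [ha, hb, zero_add]
  exact hpack fun h => hab (Prod.ext (Subtype.ext (ha.trans hb.symm)) h)

/-- **A lattice with the points of a translate of a lattice.** -/
theorem gram_of_centres_eq {B W : Matrix (Fin n) (Fin n) ℝ} (hB : B.det ≠ 0) {k : ℝ}
    {P : Matrix (Fin n) (Fin n) ℤ} (hW : Wᵀ * W = realMat P)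
    (h : translatedLattice B 1 0 = translatedLattice W k 0) :
    ∃ U : Matrix (Fin n) (Fin n) ℤ, IsUnit U ∧
      (realMat U)ᵀ * (Bᵀ * B) * realMat U = k ^ 2 • realMat P := by
  have hmem : ∀ (C D : Matrix (Fin n) (Fin n) ℝ) (a b : ℝ),
      translatedLattice C a 0 = translatedLattice D b 0 →
        ∀ z, ∃ w, (a • C) *ᵥ ofInt z = (b • D) *ᵥ ofInt w := fun C D a b e z => by
    obtain ⟨w, hw⟩ := e.le ⟨z, rfl⟩
    refine ⟨w, ?_⟩
    simpa [Matrix.smul_mulVec] using congrArg (WithLp.ofLp) hw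
  obtain ⟨A, hA⟩ := exists_factor (hmem B W 1 k h)
  obtain ⟨U, hU⟩ := exists_factor (hmem W B k 1 h.symm)
  rw [one_smul] at hA hU
  have hUA : realMat (U * A) = 1 := by
    have h1 : B * realMat (U * A) = B * 1 := by
      rw [show realMat (U * A) = realMat U * realMat A from
        map_mul (Int.castRingHom ℝ).mapMatrix U A, ← Matrix.mul_assoc, ← hU, ← hA, Matrix.mul_one]
    exact ((Matrix.isUnit_iff_isUnit_det B).2 (isUnit_iff_ne_zero.2 hB)).mul_left_cancel h1
  refine ⟨U, IsUnit.of_mul_eq_one A (Matrix.map_injective (Int.cast_injective (α := ℝ)) ?_), ?_⟩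
  · show (U * A).map ((↑) : ℤ → ℝ) = (1 : Matrix (Fin n) (Fin n) ℤ).map ((↑) : ℤ → ℝ)
    rw [show (1 : Matrix (Fin n) (Fin n) ℤ).map ((↑) : ℤ → ℝ) = 1 from
      Matrix.map_one _ Int.cast_zero Int.cast_one]
    exact hUA
  · calc (realMat U)ᵀ * (Bᵀ * B) * realMat U = (B * realMat U)ᵀ * (B * realMat U) := by
          simp only [transpose_mul, Matrix.mul_assoc]
      _ = _ := by
          rw [← hU, transpose_smul, smul_mul_assoc, mul_smul_comm, smul_smul, hW, sq]

end FA.PackingLP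

end
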