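import Fermat.Agent.PackingLP.Density
import Fermat.Agent.Perfect.Packing

/-!
# The upper density of an arbitrary packing

A bound for disjoint balls in cubes bounds the upper density of every packing of balls, by a grid
of cubes; the upper density of a lattice packing is at least its density, by a grid of cells.
-/

set_option autoImplicit false

noncomputable section

open MeasureTheory Matrix Set Filter FA.Perfect
open scoped Topology ENNReal

namespace FA.PackingLP

variable {n : ℕ}

/-- The part of the ball of radius `R` covered by the balls of radius `r` about `P`. -/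
def packingRatio (P : Set (EuclideanSpace ℝ (Fin n))) (r R : ℝ) : ℝ :=
  volume.real ((⋃ p ∈ P, Metric.ball p r) ∩ Metric.ball 0 R) / ballVolume n R

theorem packingRatio_mem (P : Set (EuclideanSpace ℝ (Fin n))) (r R : ℝ) :
    packingRatio P r R ∈ Icc (0 : ℝ) 1 :=
  ⟨div_nonneg measureReal_nonneg measureReal_nonneg, div_le_one_of_le₀
    (measureReal_mono inter_subset_right measure_ball_lt_top.ne) measureReal_nonneg⟩

theorem ballVolume_eq_pow {R : ℝ} (hR : 0 < R) : ballVolume n R = R ^ n * ballVolume n 1 := by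
  rw [ballVolume_eq hR, ballVolume_eq one_pos, ← mul_assoc, ← mul_pow, mul_one, mul_comm R 2]

theorem ballVolume_pos {R : ℝ} (hR : 0 < R) : 0 < ballVolume n R :=
  ENNReal.toReal_pos (Metric.measure_ball_pos volume 0 hR).ne' measure_ball_lt_top.ne

/-- A half open box. -/
def gridBox (S : ℝ) (k : Fin n → ℤ) : Set (EuclideanSpace ℝ (Fin n)) :=
  {x | ∀ i, x i ∈ Ico (S * k i) (S * k i + S)}

theorem gridBox_facts {S : ℝ} (hS : 0 < S) (k : Fin n → ℤ) :
    MeasurableSet (gridBox S k) ∧ volume (gridBox S k) = ENNReal.ofReal (S ^ n) := by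
  have hm : MeasurableSet (gridBox S k) := by
    simp only [gridBox, Set.ofPred_forall]
    exact MeasurableSet.iInter fun i =>
      (by fun_prop : Measurable fun x : EuclideanSpace ℝ (Fin n) => x i) measurableSet_Ico
  refine ⟨hm, ?_⟩
  rw [← (PiLp.volume_preserving_toLp (Fin n)).measure_preimage hm.nullMeasurableSet,
    show (WithLp.toLp 2) ⁻¹' gridBox S k =
      Set.univ.pi fun i => Ico (S * k i) (S * k i + S) by ext x; simp [gridBox],
    Real.volume_pi_Ico]
  simp [ENNReal.ofReal_pow hS.le]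

theorem gridBox_disjoint {S : ℝ} (hS : 0 < S) :
    Pairwise fun k l : Fin n → ℤ => Disjoint (gridBox S k) (gridBox S l) := by
  intro k l hkl
  obtain ⟨i, hi⟩ := Function.ne_iff.1 hkl
  refine Set.disjoint_left.2 fun x hx hy => hi ?_
  have h1 : ⌊x i / S⌋ = k i := Int.floor_eq_iff.2
    ⟨by rw [le_div_iff₀ hS]; linarith [(hx i).1], by rw [div_lt_iff₀ hS]; linarith [(hx i).2]⟩
  have h2 : ⌊x i / S⌋ = l i := Int.floor_eq_iff.2
    ⟨by rw [le_div_iff₀ hS]; linarith [(hy i).1], by rw [div_lt_iff₀ hS]; linarith [(hy i).2]⟩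
  rw [← h1, h2]

theorem mem_gridBox {S : ℝ} (hS : 0 < S) (x : EuclideanSpace ℝ (Fin n)) :
    x ∈ gridBox S fun i => ⌊x i / S⌋ := fun i => by
  have h1 := Int.floor_le (x i / S)
  have h2 := Int.lt_floor_add_one (x i / S)
  rw [le_div_iff₀ hS] at h1
  rw [div_lt_iff₀ hS] at h2
  constructor <;> linarith

theorem dist_gridBox {S : ℝ} (hS : 0 < S) {k : Fin n → ℤ} {x y : EuclideanSpace ℝ (Fin n)}
    (hx : x ∈ gridBox S k) (hy : y ∈ gridBox S k) : dist x y ≤ n * S := by
  have h : dist x y ^ 2 ≤ n * S ^ 2 := by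
    rw [← sum_sq_eq_dist_sq]
    refine (Finset.sum_le_card_nsmul _ _ (S ^ 2) fun i _ => ?_).trans_eq (by simp)
    refine sq_le_sq' ?_ ?_ <;> linarith [(hx i).1, (hx i).2, (hy i).1, (hy i).2]
  rcases Nat.eq_zero_or_pos n with rfl | hn
  · simp [Subsingleton.elim x y]
  refine le_of_pow_le_pow_left₀ two_ne_zero (by positivity) (h.trans ?_)
  rw [mul_pow]
  exact mul_le_mul_of_nonneg_right (le_self_pow₀ (by exact_mod_cast hn) two_ne_zero) (sq_nonneg S)

variable {δ r : ℝ} {P : Set (EuclideanSpace ℝ (Fin n))}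

/-- The bound for disjoint balls in cubes. -/
def HasCubeBound (n : ℕ) (δ : ℝ) : Prop :=
  ∀ (r S : ℝ) (t : Finset (EuclideanSpace ℝ (Fin n))), 0 < r → 0 ≤ S →
    (∀ p ∈ t, ∀ x ∈ Metric.ball p r, ∀ i, x i ∈ Icc 0 S) →
    (t : Set (EuclideanSpace ℝ (Fin n))).PairwiseDisjoint (fun p => Metric.ball p r) →
    (t.card : ℝ) * ballVolume n r ≤ δ * S ^ n

theorem measure_inter_gridBox (h : HasCubeBound n δ) (hr : 0 < r)
    (hP : P.PairwiseDisjoint fun p => Metric.ball p r) {S : ℝ} (hS : 0 < S) (k : Fin n → ℤ) :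
    volume ((⋃ p ∈ P, Metric.ball p r) ∩ gridBox S k) ≤
      ENNReal.ofReal (δ * (S + 4 * r) ^ n) := by
  set T := {p ∈ P | (Metric.ball p r ∩ gridBox S k).Nonempty}
  set v : EuclideanSpace ℝ (Fin n) := WithLp.toLp 2 fun i => S * k i - 2 * r
  have key : ∀ t : Finset (EuclideanSpace ℝ (Fin n)), (t : Set _) ⊆ T →
      (t.card : ℝ) * ballVolume n r ≤ δ * (S + 4 * r) ^ n := fun t ht => by
    classical
    rw [← Finset.card_image_of_injective t (sub_left_injective (b := v))]
    refine h r _ _ hr (by linarith) (fun p hp x hx i => ?_) ?_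
    · obtain ⟨q, hq, rfl⟩ := Finset.mem_image.1 hp
      obtain ⟨y, hy, hy'⟩ := (ht hq).2
      have hxi : |x i - (q - v) i| < r := by
        refine lt_of_le_of_lt ?_ (mem_ball_iff_norm.1 hx)
        simpa using PiLp.norm_apply_le (x - (q - v)) i
      have hyi : |y i - q i| < r := by
        refine lt_of_le_of_lt ?_ (mem_ball_iff_norm.1 hy)
        simpa using PiLp.norm_apply_le (y - q) i
      have hv : (q - v) i = q i - (S * k i - 2 * r) := by simp [v]
      rw [hv, abs_lt] at hxi
      rw [abs_lt] at hyi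
      constructor <;> linarith [(hy' i).1, (hy' i).2]
    · intro p hp q hq hpq
      obtain ⟨a, ha, rfl⟩ := Finset.mem_image.1 (Finset.mem_coe.1 hp)
      obtain ⟨b, hb, rfl⟩ := Finset.mem_image.1 (Finset.mem_coe.1 hq)
      have hd := (disjoint_ball_ball_iff hr hr).1
        (hP (ht ha).1 (ht hb).1 fun e => hpq (by rw [e]))
      exact (disjoint_ball_ball_iff hr hr).2 (hd.trans_eq (dist_sub_right a b v).symm)
  have hfin : T.Finite := by
    by_contra hinf
    obtain ⟨N, hN⟩ := exists_nat_gt (δ * (S + 4 * r) ^ n / ballVolume n r)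
    obtain ⟨t, ht, hcard⟩ := Set.Infinite.exists_subset_card_eq hinf N
    have hle := key t ht
    rw [hcard, ← le_div_iff₀ (ballVolume_pos hr)] at hle
    linarith
  have hsub : (⋃ p ∈ P, Metric.ball p r) ∩ gridBox S k ⊆
      ⋃ p ∈ hfin.toFinset, Metric.ball p r := by
    rintro x ⟨hx, hxk⟩
    obtain ⟨p, hp, hxp⟩ := mem_iUnion₂.1 hx
    exact mem_iUnion₂.2 ⟨p, hfin.mem_toFinset.2 ⟨hp, x, hxp, hxk⟩, hxp⟩
  refine (measure_mono hsub).trans ((measure_biUnion_finset_le _ _).trans ?_)
  have hball : ∀ p : EuclideanSpace ℝ (Fin n),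
      volume (Metric.ball p r) = ENNReal.ofReal (ballVolume n r) := fun p => by
    rw [Measure.addHaar_ball_center volume p, ballVolume, measureReal_def,
      ENNReal.ofReal_toReal measure_ball_lt_top.ne]
  simp only [hball, Finset.sum_const, nsmul_eq_mul]
  rw [← ENNReal.ofReal_natCast, ← ENNReal.ofReal_mul (Nat.cast_nonneg _)]
  exact ENNReal.ofReal_le_ofReal (key _ (by simp))

theorem packingRatio_le (h : HasCubeBound n δ) (hδ : 0 ≤ δ) (hr : 0 < r)
    (hP : P.PairwiseDisjoint fun p => Metric.ball p r) {S R : ℝ} (hS : 0 < S) (hR : 0 < R) :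
    packingRatio P r R ≤ δ * (1 + 4 * r / S) ^ n * (1 + n * S / R) ^ n := by
  set K := {k : Fin n → ℤ | (gridBox S k ∩ Metric.ball 0 R).Nonempty}
  set c := δ * (1 + 4 * r / S) ^ n
  have hc : 0 ≤ c := by positivity
  have hRS : 0 < R + n * S := by positivity
  have h1 : volume ((⋃ p ∈ P, Metric.ball p r) ∩ Metric.ball 0 R) ≤
      ENNReal.ofReal c * ENNReal.ofReal (ballVolume n (R + n * S)) := by
    have hcover : (⋃ p ∈ P, Metric.ball p r) ∩ Metric.ball 0 R ⊆
        ⋃ k ∈ K, (⋃ p ∈ P, Metric.ball p r) ∩ gridBox S k := fun x hx =>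
      mem_iUnion₂.2 ⟨_, ⟨x, mem_gridBox hS x, hx.2⟩, hx.1, mem_gridBox hS x⟩
    have hbox : ⋃ k ∈ K, gridBox S k ⊆ Metric.ball 0 (R + n * S) := by
      intro x hx
      obtain ⟨k, ⟨y, hy, hy'⟩, hxk⟩ := mem_iUnion₂.1 hx
      rw [Metric.mem_ball] at hy' ⊢
      exact (dist_triangle x y 0).trans_lt (by linarith [dist_gridBox hS hxk hy])
    have hpt : ∀ k : Fin n → ℤ, volume ((⋃ p ∈ P, Metric.ball p r) ∩ gridBox S k) ≤
        ENNReal.ofReal c * volume (gridBox S k) := fun k => by
      refine (measure_inter_gridBox h hr hP hS k).trans_eq ?_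
      rw [(gridBox_facts hS k).2, ← ENNReal.ofReal_mul hc, mul_assoc, ← mul_pow, add_mul,
        one_mul, div_mul_cancel₀ _ hS.ne']
    refine (measure_mono hcover).trans ((measure_biUnion_le _ (Set.to_countable K) _).trans ?_)
    refine (ENNReal.tsum_le_tsum fun k : K => hpt k.1).trans ?_
    rw [ENNReal.tsum_mul_left, ← measure_biUnion (Set.to_countable K)
      ((gridBox_disjoint hS).set_pairwise _) fun k _ => (gridBox_facts hS k).1, ballVolume,
      measureReal_def, ENNReal.ofReal_toReal measure_ball_lt_top.ne]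
    exact mul_le_mul_of_nonneg_left (measure_mono hbox) zero_le
  rw [← ENNReal.ofReal_mul hc] at h1
  have h2 := ENNReal.toReal_le_of_le_ofReal (mul_nonneg hc (ballVolume_nonneg _)) h1
  rw [packingRatio, div_le_iff₀ (ballVolume_pos hR), measureReal_def]
  refine h2.trans_eq ?_
  rw [ballVolume_eq_pow hRS, ballVolume_eq_pow hR, show R + n * S = (1 + n * S / R) * R by
    field_simp, mul_pow]
  ring

/-- **Upper density.** -/
theorem limsup_packingRatio_le (h : HasCubeBound n δ) (hδ : 0 ≤ δ) (hr : 0 < r)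
    (hP : P.PairwiseDisjoint fun p => Metric.ball p r) :
    limsup (packingRatio P r) atTop ≤ δ := by
  have hS : ∀ S : ℝ, 0 < S → limsup (packingRatio P r) atTop ≤ δ * (1 + 4 * r / S) ^ n :=
    fun S hS => by
    have ht : Tendsto (fun R : ℝ => δ * (1 + 4 * r / S) ^ n * (1 + n * S / R) ^ n) atTop
        (𝓝 (δ * (1 + 4 * r / S) ^ n)) := by
      simpa using (((tendsto_const_nhds (x := (n : ℝ) * S)).div_atTop tendsto_id).const_add
        1 |>.pow n).const_mul (δ * (1 + 4 * r / S) ^ n)
    refine (limsup_le_limsup ((eventually_gt_atTop 0).mono fun R hR => packingRatio_le h hδ hr hP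
      hS hR) ?_ ht.isBoundedUnder_le).trans_eq ht.limsup_eq
    exact isCoboundedUnder_le_of_le atTop fun R => (packingRatio_mem P r R).1
  have ht : Tendsto (fun S : ℝ => δ * (1 + 4 * r / S) ^ n) atTop (𝓝 δ) := by
    simpa using (((tendsto_const_nhds (x := 4 * r)).div_atTop tendsto_id).const_add
      1 |>.pow n).const_mul δ
  exact ge_of_tendsto ht ((eventually_gt_atTop 0).mono hS)

/-- The upper density of a lattice packing is at least its density. -/
theorem le_limsup_packingRatio_lattice {B : Matrix (Fin n) (Fin n) ℝ} (hB : B.det ≠ 0)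
    (hr : 0 < r) (hpack : IsLatticePacking B r) :
    ballVolume n r / |B.det| ≤ limsup (packingRatio (range (latticePoint B)) r) atTop := by
  have hu : IsUnit B.det := isUnit_iff_ne_zero.2 hB
  obtain ⟨D, hD⟩ := (isCompact_univ_pi fun _ : Fin n => isCompact_Icc (a := (0 : ℝ)) (b := 1))
    |>.exists_bound_of_continuousOn (f := fun t : Fin n → ℝ => WithLp.toLp 2 (B *ᵥ t))
      (((PiLp.continuous_toLp 2 fun _ : Fin n => ℝ).comp
        (continuous_const.matrix_mulVec continuous_id)).continuousOn)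
  have hD0 : 0 ≤ D := (norm_nonneg _).trans (hD 0 fun i _ => by simp)
  let cell : (Fin n → ℤ) → Set (EuclideanSpace ℝ (Fin n)) := fun z =>
    {x | ∀ i, (B⁻¹ *ᵥ fun j => x j) i ∈ Ico (z i : ℝ) (z i + 1)}
  have hcell : ∀ z, volume (cell z) = ENNReal.ofReal |B.det| := fun z => by
    have hm : MeasurableSet (cell z) := by
      simp only [cell, Set.ofPred_forall]
      exact MeasurableSet.iInter fun i => (by unfold Matrix.mulVec dotProduct; fun_prop :
        Measurable fun x : EuclideanSpace ℝ (Fin n) => (B⁻¹ *ᵥ fun j => x j) i) measurableSet_Ico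
    rw [← (PiLp.volume_preserving_toLp (Fin n)).measure_preimage hm.nullMeasurableSet,
      show (WithLp.toLp 2) ⁻¹' cell z = (fun x => B⁻¹ *ᵥ x) ⁻¹'
        (Set.univ.pi fun i => Ico (z i : ℝ) (z i + 1)) by ext x; simp [cell]]
    have hmeas : Measurable fun x : Fin n → ℝ => B⁻¹ *ᵥ x := by
      unfold Matrix.mulVec dotProduct; fun_prop
    rw [← Measure.map_apply hmeas (MeasurableSet.univ_pi fun i => measurableSet_Ico),
      show (fun x => B⁻¹ *ᵥ x) = ⇑(Matrix.toLin' B⁻¹) from rfl,
      Real.map_matrix_volume_pi_eq_smul_volume_pi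
        (by rw [Matrix.det_nonsing_inv, Ring.inverse_eq_inv']; exact inv_ne_zero hB),
      Measure.smul_apply, Real.volume_pi_Ico, Matrix.det_nonsing_inv, Ring.inverse_eq_inv',
      inv_inv]
    simp
  have key : ∀ R : ℝ, r + D < R →
      ballVolume n r / |B.det| * ((R - r - D) / R) ^ n ≤
        packingRatio (range (latticePoint B)) r R := fun R hR => by
    have hR0 : 0 < R := by linarith
    set Z := {z : Fin n → ℤ | ‖latticePoint B z‖ < R - r}
    have hsub : Metric.ball 0 (R - r - D) ⊆ ⋃ z ∈ Z, cell z := fun x hx => by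
      set t := B⁻¹ *ᵥ fun j => x j
      refine mem_iUnion₂.2 ⟨fun i => ⌊t i⌋, ?_, fun i => ⟨Int.floor_le _, Int.lt_floor_add_one _⟩⟩
      have hx' : latticePoint B (fun i => ⌊t i⌋) =
          x - WithLp.toLp 2 (B *ᵥ fun i => Int.fract (t i)) := by
        have e : (fun i => Int.fract (t i)) = t - castVec fun i => ⌊t i⌋ := rfl
        rw [latticePoint, e, Matrix.mulVec_sub, Matrix.mulVec_mulVec, Matrix.mul_nonsing_inv _ hu,
          Matrix.one_mulVec, WithLp.toLp_sub]
        exact (sub_sub_cancel x _).symm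
      have h1 := hD (fun i => Int.fract (t i)) fun i _ =>
        ⟨Int.fract_nonneg _, (Int.fract_lt_one _).le⟩
      rw [mem_ball_zero_iff] at hx
      show ‖latticePoint B _‖ < R - r
      rw [hx']
      linarith [norm_sub_le x (WithLp.toLp 2 (B *ᵥ fun i => Int.fract (t i)))]
    have hin : ⋃ z ∈ Z, Metric.ball (latticePoint B z) r ⊆
        (⋃ p ∈ range (latticePoint B), Metric.ball p r) ∩ Metric.ball 0 R := by
      intro x hx
      obtain ⟨z, hz, hxz⟩ := mem_iUnion₂.1 hx
      refine ⟨mem_iUnion₂.2 ⟨_, mem_range_self z, hxz⟩, ?_⟩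
      rw [Metric.mem_ball] at hxz ⊢
      have hz' : ‖latticePoint B z‖ < R - r := hz
      rw [← dist_zero_right] at hz'
      exact (dist_triangle x (latticePoint B z) 0).trans_lt (by linarith)
    have hvol : ∀ (p : EuclideanSpace ℝ (Fin n)) (s : ℝ),
        volume (Metric.ball p s) = ENNReal.ofReal (ballVolume n s) := fun p s => by
      rw [Measure.addHaar_ball_center volume p, ballVolume, measureReal_def,
        ENNReal.ofReal_toReal measure_ball_lt_top.ne]
    have h1 : ENNReal.ofReal (ballVolume n (R - r - D)) * ENNReal.ofReal (ballVolume n r) ≤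
        ENNReal.ofReal |B.det| *
          volume ((⋃ p ∈ range (latticePoint B), Metric.ball p r) ∩ Metric.ball 0 R) := by
      rw [← hvol 0]
      refine (mul_le_mul_of_nonneg_right ((measure_mono hsub).trans
        (measure_biUnion_le _ (Set.to_countable Z) _)) zero_le).trans ?_
      simp only [hcell]
      refine le_trans ?_ (mul_le_mul_of_nonneg_left (measure_mono hin) zero_le)
      rw [measure_biUnion (Set.to_countable Z) (hpack.set_pairwise _) fun z _ => measurableSet_ball]
      simp only [hvol, ← ENNReal.tsum_mul_left, ← ENNReal.tsum_mul_right]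
      exact le_rfl
    have h2 := ENNReal.toReal_mono
      (ENNReal.mul_ne_top ENNReal.ofReal_ne_top (measure_ne_top_of_subset inter_subset_right
        measure_ball_lt_top.ne)) h1
    rw [ENNReal.toReal_mul, ENNReal.toReal_mul, ENNReal.toReal_ofReal (ballVolume_nonneg _),
      ENNReal.toReal_ofReal (ballVolume_nonneg _), ENNReal.toReal_ofReal (abs_nonneg _),
      ballVolume_eq_pow (by linarith : 0 < R - r - D), ← measureReal_def] at h2
    rw [packingRatio, le_div_iff₀ (ballVolume_pos hR0), div_pow, ballVolume_eq_pow hR0]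
    have hd : 0 < |B.det| := abs_pos.2 hB
    field_simp
    linarith
  have ht : Tendsto (fun R : ℝ => ballVolume n r / |B.det| * ((R - r - D) / R) ^ n) atTop
      (𝓝 (ballVolume n r / |B.det|)) := by
    have h := (((tendsto_const_nhds (x := r + D)).div_atTop tendsto_id).const_sub 1 |>.pow n
      ).const_mul (ballVolume n r / |B.det|)
    simp only [sub_zero, one_pow, mul_one] at h
    refine h.congr' ((eventually_gt_atTop 0).mono fun R hR => ?_)
    show _ = ballVolume n r / |B.det| * ((R - r - D) / R) ^ n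
    rw [sub_sub R r D, sub_div, div_self hR.ne']
    rfl
  refine ht.limsup_eq.symm.trans_le (limsup_le_limsup ((eventually_gt_atTop (r + D)).mono key)
    ht.isCoboundedUnder_le ?_)
  exact ⟨1, eventually_map.2 (Eventually.of_forall fun R => (packingRatio_mem _ r R).2)⟩

end FA.PackingLP

end
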